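/-
Programme FF (S19), chapter INST (lead): **orbit unions of approximate Hopf generating sets**.

`G` a group acting on `Om` (by ring automorphisms) and on `M` (through `act`, additively);
`Δ, Γ ≤ G` with `Δ` normalising `Γ`; `W → Om` injective with `Δ`-stable image; `O ⊂ Om` `Δ`-stable.

* `tw act σ s = fun m => σ • s (act σ⁻¹ m)` : the twist of a function `M → Om`;
* `tw_mem_adjoin`, `tw2_mem_tensorSpan`, `ApproxComul.tw` : transport of structure;
* `exists_stable` : from `ApproxGen W O (act|Γ) S` to a `Δ`-stable `S0 ⊇ S` with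
  `ApproxGen W O (act|Γ) S0` — the input `h0`, `hstab` of the local descent of F7.
* `finite_twists` : finiteness of the set of twists from finite orbits on `Om`.
-/
import Mathlib
import Fermat.Agent.FF.BASE.ApproxGen2

set_option autoImplicit false
set_option linter.unusedSectionVars false
set_option linter.style.longLine false

namespace Fermat.Agent.FF.INST.Orbit0

open Fermat.Agent.FF.BASE.ApproxGen2

noncomputable section

variable {W : Type} [CommRing W] {Om : Type} [CommRing Om] [Algebra W Om]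
  {M : Type} [AddCommGroup M] {G : Type} [Group G] [MulSemiringAction G Om]

/-- the twist of a function `M → Om` by `σ`. -/
def tw (act : G → M → M) (σ : G) (s : M → Om) : M → Om := fun m => σ • s (act σ⁻¹ m)

/-- the twist of a function `M × M → Om` by `σ`. -/
def tw2 (act : G → M → M) (σ : G) (t : M × M → Om) : M × M → Om :=
  fun p => σ • t (act σ⁻¹ p.1, act σ⁻¹ p.2)

variable {act : G → M → M}

theorem tw_one (hact1 : ∀ x, act 1 x = x) (s : M → Om) : tw act 1 s = s := by
  funext m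
  simp only [tw, inv_one, hact1, one_smul]

theorem tw_mul (hactmul : ∀ σ τ x, act (σ * τ) x = act σ (act τ x)) (σ τ : G) (s : M → Om) :
    tw act (σ * τ) s = tw act σ (tw act τ s) := by
  funext m
  simp only [tw, mul_inv_rev, hactmul, mul_smul]

theorem tw_add (σ : G) (a b : M → Om) : tw act σ (a + b) = tw act σ a + tw act σ b := by
  funext m
  simp only [tw, Pi.add_apply, smul_add]

theorem tw_mul_fun (σ : G) (a b : M → Om) : tw act σ (a * b) = tw act σ a * tw act σ b := by
  funext m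
  simp only [tw, Pi.mul_apply, smul_mul']

theorem tw_algebraMap (σ : G) {v v' : W} (h : algebraMap W Om v' = σ • algebraMap W Om v) :
    tw act σ (algebraMap W (M → Om) v) = algebraMap W (M → Om) v' := by
  funext m
  simp only [tw, Pi.algebraMap_apply, h]

theorem tw_mem_adjoin (σ : G) (hW : ∀ v : W, ∃ v' : W, algebraMap W Om v' = σ • algebraMap W Om v)
    {S : Set (M → Om)} {a : M → Om} (ha : a ∈ Algebra.adjoin W S) :
    tw act σ a ∈ Algebra.adjoin W (tw act σ '' S) := by
  induction ha using Algebra.adjoin_induction with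
  | mem s hs => exact Algebra.subset_adjoin ⟨s, hs, rfl⟩
  | algebraMap v =>
    obtain ⟨v', hv'⟩ := hW v
    rw [tw_algebraMap σ hv']
    exact Subalgebra.algebraMap_mem _ v'
  | add f g _ _ hf hg => rw [tw_add]; exact Subalgebra.add_mem _ hf hg
  | mul f g _ _ hf hg => rw [tw_mul_fun]; exact Subalgebra.mul_mem _ hf hg

theorem tw2_tens (σ : G) (a b : M → Om) : tw2 act σ (tens a b) = tens (tw act σ a) (tw act σ b) := by
  funext p
  simp only [tw2, tw, tens_apply, smul_mul']

theorem tw2_add (σ : G) (t t' : M × M → Om) : tw2 act σ (t + t') = tw2 act σ t + tw2 act σ t' := by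
  funext p
  simp only [tw2, Pi.add_apply, smul_add]

theorem tw2_zero (σ : G) : tw2 act σ (0 : M × M → Om) = 0 := by
  funext p
  simp only [tw2, Pi.zero_apply, smul_zero]

theorem tw2_smul (σ : G) {v v' : W} (h : algebraMap W Om v' = σ • algebraMap W Om v)
    (t : M × M → Om) : tw2 act σ (v • t) = v' • tw2 act σ t := by
  funext p
  simp only [tw2, Pi.smul_apply, Algebra.smul_def, smul_mul', h]

theorem tw2_mem_tensorSpan (σ : G)
    (hW : ∀ v : W, ∃ v' : W, algebraMap W Om v' = σ • algebraMap W Om v)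
    {S : Set (M → Om)} {t : M × M → Om} (ht : t ∈ tensorSpan W S) :
    tw2 act σ t ∈ tensorSpan W (tw act σ '' S) := by
  unfold tensorSpan at ht
  induction ht using Submodule.span_induction with
  | mem F hF =>
    obtain ⟨a, ha, b, hb, rfl⟩ := hF
    rw [tw2_tens]
    exact tens_mem_tensorSpan (tw_mem_adjoin σ hW ha) (tw_mem_adjoin σ hW hb)
  | zero => rw [tw2_zero]; exact Submodule.zero_mem _
  | add x y _ _ hx hy => rw [tw2_add]; exact Submodule.add_mem _ hx hy
  | smul v x _ hx =>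
    obtain ⟨v', hv'⟩ := hW v
    rw [tw2_smul σ hv']
    exact Submodule.smul_mem _ v' hx

/-- transport of approximate comultiplications. -/
theorem ApproxComul.tw {O : Subring Om} (σ : G) (hactadd : ∀ x y, act σ⁻¹ (x + y) = act σ⁻¹ x + act σ⁻¹ y)
    (hO : ∀ o ∈ O, σ • o ∈ O)
    (hW : ∀ v : W, ∃ v' : W, algebraMap W Om v' = σ • algebraMap W Om v)
    {S : Set (M → Om)} {w w' : W} (hw : algebraMap W Om w' = σ • algebraMap W Om w) {s : M → Om}
    (h : ApproxComul W O S w s) : ApproxComul W O (Orbit0.tw act σ '' S) w' (Orbit0.tw act σ s) := by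
  obtain ⟨t, ht, hsm⟩ := h
  refine ⟨tw2 act σ t, tw2_mem_tensorSpan σ hW ht, fun p => ?_⟩
  obtain ⟨o, ho, h⟩ := hsm (act σ⁻¹ p.1, act σ⁻¹ p.2)
  refine ⟨σ • o, hO o ho, ?_⟩
  simp only [Orbit0.tw, tw2, hactadd]
  simp only at h
  rw [← smul_sub, h, smul_mul', hw]

theorem ApproxComul.mono {O : Subring Om} {S T : Set (M → Om)} (hST : S ⊆ T) {w : W} {s : M → Om}
    (h : ApproxComul W O S w s) : ApproxComul W O T w s := by
  obtain ⟨t, ht, hsm⟩ := h
  exact ⟨t, tensorSpan_mono (Algebra.adjoin_mono hST) ht, hsm⟩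

/-- the orbit union of `S` under `Δ`. -/
def orbitUnion (act : G → M → M) (Δ : Subgroup G) (S : Set (M → Om)) : Set (M → Om) :=
  {f | ∃ σ ∈ Δ, ∃ s ∈ S, f = tw act σ s}

theorem subset_orbitUnion (hact1 : ∀ x, act 1 x = x) (Δ : Subgroup G) (S : Set (M → Om)) :
    S ⊆ orbitUnion act Δ S := fun s hs => ⟨1, Δ.one_mem, s, hs, (tw_one hact1 s).symm⟩

theorem image_subset_orbitUnion {Δ : Subgroup G} {σ : G} (hσ : σ ∈ Δ) (S : Set (M → Om)) :
    tw act σ '' S ⊆ orbitUnion act Δ S := by
  rintro _ ⟨s, hs, rfl⟩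
  exact ⟨σ, hσ, s, hs, rfl⟩

theorem orbitUnion_stable (hactmul : ∀ σ τ x, act (σ * τ) x = act σ (act τ x)) {Δ : Subgroup G}
    {S : Set (M → Om)} {τ : G} (hτ : τ ∈ Δ) {f : M → Om} (hf : f ∈ orbitUnion act Δ S) :
    tw act τ f ∈ orbitUnion act Δ S := by
  obtain ⟨σ, hσ, s, hs, rfl⟩ := hf
  exact ⟨τ * σ, Δ.mul_mem hτ hσ, s, hs, (tw_mul hactmul τ σ s).symm⟩

/-- **orbit union**: a `Δ`-stable approximate Hopf generating set containing `S`. -/
theorem approxGen_orbitUnion {O : Subring Om} (hact1 : ∀ x, act 1 x = x)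
    (hactmul : ∀ σ τ x, act (σ * τ) x = act σ (act τ x))
    (hactadd : ∀ σ x y, act σ (x + y) = act σ x + act σ y)
    (Δ Γ : Subgroup G) (hnorm : ∀ σ ∈ Δ, ∀ γ ∈ Γ, σ⁻¹ * γ * σ ∈ Γ)
    (hO : ∀ σ ∈ Δ, ∀ o ∈ O, σ • o ∈ O)
    (hWinj : Function.Injective (algebraMap W Om))
    (hW : ∀ σ ∈ Δ, ∀ v : W, ∃ v' : W, algebraMap W Om v' = σ • algebraMap W Om v)
    {S : Set (M → Om)} (horb : ∀ s ∈ S, {f | ∃ σ ∈ Δ, f = tw act σ s}.Finite)
    (h : ApproxGen W O (fun γ : Γ => act γ.1) S) :
    ApproxGen W O (fun γ : Γ => act γ.1) (orbitUnion act Δ S) where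
  fin := by
    have : orbitUnion act Δ S = ⋃ s ∈ S, {f | ∃ σ ∈ Δ, f = tw act σ s} := by
      ext f
      simp only [orbitUnion, Set.mem_setOf_eq, Set.mem_iUnion, exists_prop]
      constructor
      · rintro ⟨σ, hσ, s, hs, rfl⟩
        exact ⟨s, hs, σ, hσ, rfl⟩
      · rintro ⟨s, hs, σ, hσ, rfl⟩
        exact ⟨σ, hσ, s, hs, rfl⟩
    rw [this]
    exact h.fin.biUnion horb
  int := by
    rintro _ ⟨σ, hσ, s, hs, rfl⟩ x
    exact hO σ hσ _ (h.int s hs _)
  eqv := by
    rintro _ ⟨σ, hσ, s, hs, rfl⟩ γ x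
    have hγ' := hnorm σ hσ γ.1 γ.2
    have h1 : act σ⁻¹ (act γ.1 x) = act (σ⁻¹ * γ.1 * σ) (act σ⁻¹ x) := by
      rw [← hactmul, ← hactmul]
      congr 1
      group
    have h2 := h.eqv s hs ⟨σ⁻¹ * γ.1 * σ, hγ'⟩ (act σ⁻¹ x)
    simp only at h2
    show σ • s (act σ⁻¹ (act γ.1 x)) = γ • (σ • s (act σ⁻¹ x))
    rw [h1, h2]
    show σ • ((σ⁻¹ * γ.1 * σ) • s (act σ⁻¹ x)) = γ.1 • (σ • s (act σ⁻¹ x))
    rw [← mul_smul, ← mul_smul]
    congr 1
    group
  sep := fun x y hxy => h.sep x y fun s hs => hxy s (subset_orbitUnion hact1 Δ S hs)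
  comul := by
    rintro _ ⟨σ, hσ, s, hs, rfl⟩ w hw
    obtain ⟨w', hw'⟩ := hW σ⁻¹ (Δ.inv_mem hσ) w
    have hw'0 : w' ≠ 0 := by
      rintro rfl
      rw [map_zero] at hw'
      have : algebraMap W Om w = 0 := by
        have := congrArg (fun z => σ • z) hw'
        simpa using this.symm
      exact hw (hWinj (by rw [this, map_zero]))
    have hww' : algebraMap W Om w = σ • algebraMap W Om w' := by
      rw [hw', smul_inv_smul]
    exact ApproxComul.mono (image_subset_orbitUnion hσ S)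
      (ApproxComul.tw σ (hactadd σ⁻¹) (hO σ hσ) (hW σ hσ) hww' (h.comul s hs w' hw'0))

/-- finiteness of the set of twists of a function from finite orbits on `Om`. -/
theorem finite_twists [Finite M] (Δ : Subgroup G) (horb : ∀ a : Om, (Set.range fun σ : G => σ • a).Finite)
    (s : M → Om) : {f | ∃ σ ∈ Δ, f = tw act σ s}.Finite := by
  classical
  have hR : (⋃ m : M, Set.range fun σ : G => σ • s m).Finite :=
    Set.finite_iUnion fun m => horb (s m)
  have hpi : {f : M → Om | ∀ i : M, f i ∈ ⋃ m : M, Set.range fun σ : G => σ • s m}.Finite :=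
    Set.Finite.pi' fun _ => hR
  refine hpi.subset ?_
  rintro _ ⟨σ, _, rfl⟩
  intro m
  exact Set.mem_iUnion.mpr ⟨act σ⁻¹ m, σ, rfl⟩

/-- finite orbits of algebraic elements under a group of algebra automorphisms. -/
theorem finite_orbit_algEquiv {K L : Type} [Field K] [Field L] [Algebra K L]
    [Algebra.IsAlgebraic K L] (a : L) : (Set.range fun σ : L ≃ₐ[K] L => σ • a).Finite := by
  have hfin : ((minpoly K a).rootSet L).Finite := Polynomial.rootSet_finite _ _
  refine hfin.subset ?_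
  rintro _ ⟨σ, rfl⟩
  have hint : IsIntegral K a := (Algebra.IsAlgebraic.isAlgebraic a).isIntegral
  rw [Polynomial.mem_rootSet]
  refine ⟨minpoly.ne_zero hint, ?_⟩
  show Polynomial.aeval (σ a) (minpoly K a) = 0
  rw [Polynomial.aeval_algEquiv, AlgHom.comp_apply]
  simp [minpoly.aeval]

end

end Fermat.Agent.FF.INST.Orbit0
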