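/-
Programme FF (S19), chapter INST (lead): **the generators `e_c`, `τ_i` of the Hopf order** on a finite
`Γ`-stable group `M ⊂ Pic0 (F / L)`, abstractly over a `RedDatum`, a non-special system `S` (the
coordinates `T : ker(red) ≅ m_A^g` of `FF/KER/Ker0`) and a group `Γ` of semilinear automorphisms acting
trivially on the set of residue discs ("inertia") and fixing `S`.

* `redPic_smul` : `redPic (γ • x) = redPic x`;
* `Setting` : the data (`ρ`, `M`, the unramified lifts `y`) with their hypotheses;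
* `tauV x : Fin g → m_A` (`kap (tauV x) = x − y (red x)`), `tau i : M → L`, `ind c : M → L`;
* `gens` : the set `{τ_i} ∪ {e_c}`; `gens_finite`, `gens_int`, `gens_eqv`, `gens_sep`
  = the fields `fin`, `int`, `eqv`, `sep` of helper2's `ApproxGen2.ApproxGen`.
The field `comul` is in `FF/INST/Comul0`.
-/
import Mathlib
import Fermat.Agent.FF.KER.KerGal0
import Fermat.Agent.FF.BASE.ApproxGen2

set_option autoImplicit false
set_option linter.unusedSectionVars false
set_option linter.style.longLine false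

namespace Fermat.Agent.FF.INST.Gen0

open AlgebraicCurve Fermat.Agent.X0.FF Fermat.Agent.RR.LSpace Fermat.Agent.MW.EMB.Value6
open Fermat.Agent.FF.RED.RedDatum7 Fermat.Agent.FF.RED.Disc7 Fermat.Agent.FF.KER.Ker0
open Fermat.Agent.FF.KER.KerGal0

noncomputable section

variable {L F : Type} {k Ft : Type*} [Field L] [Field F] [Algebra L F] [Field k] [Field Ft]
  [Algebra k Ft]
variable {D : RedDatum L F k Ft} {g : ℕ}

/-- An automorphism acting trivially on the set of discs does not change the reduction of a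
divisor. -/
theorem mapDomain_smul_of_triv {γ : SemilinearAut L F} (hγ : ∀ P : Place L F, D.r (γ • P) = D.r P)
    (E : Divisor L F) : Finsupp.mapDomain D.r (γ • E) = Finsupp.mapDomain D.r E := by
  rw [SemilinearAut.divisor_smul_def, ← Finsupp.mapDomain_comp]
  congr 1
  funext P
  exact hγ P

/-- ... nor the reduction of a class. -/
theorem redPic_smul {γ : SemilinearAut L F} (hγ : ∀ P : Place L F, D.r (γ • P) = D.r P)
    (x : Pic0 L F) : redPic D (γ • x) = redPic D x := by
  obtain ⟨E, rfl⟩ := Pic0.mk_surjective x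
  rw [SemilinearAut.pic0_smul_mk, redPic_mk, redPic_mk]
  congr 1
  apply Subtype.ext
  rw [coe_redDegZero, coe_redDegZero, SemilinearAut.coe_degZeroSMulHom]
  exact mapDomain_smul_of_triv hγ _

/-- **The setting of the instantiation**: a group `Γ` acting on `L` and semilinearly on `F`,
trivially on the set of discs and fixing the non-special system; a finite `Γ`-stable group `M` of
classes; `Γ`-fixed lifts `y` of the reductions of the elements of `M`. -/
structure Setting (S : NSSystem D g) (Γ : Type) [Group Γ] [MulSemiringAction Γ L] where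
  hRR : ∀ E : Divisor L F, Divisor.degree E = g → ∃ f : F, f ≠ 0 ∧ ∀ P, -(E P) ≤ P.ord f
  ρ : Γ →* SemilinearAut L F
  base : ∀ (γ : Γ) (a : L), SemilinearAut.baseAut (ρ γ) a = γ • a
  triv : ∀ (γ : Γ) (P : Place L F), D.r (ρ γ • P) = D.r P
  fixes : ∀ γ : Γ, Fixes S (ρ γ)
  M : AddSubgroup (Pic0 L F)
  finM : Finite M
  stab : ∀ (γ : Γ), ∀ x ∈ M, ρ γ • x ∈ M
  y : Pic0 k Ft → Pic0 L F
  red_y : ∀ x ∈ M, redPic D (y (redPic D x)) = redPic D x
  fix_y : ∀ (γ : Γ), ∀ x ∈ M, ρ γ • y (redPic D x) = y (redPic D x)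

variable {S : NSSystem D g} {Γ : Type} [Group Γ] [MulSemiringAction Γ L] (Z : Setting S Γ)

namespace Setting

instance : Finite Z.M := Z.finM

theorem discCompat (γ : Γ) : DiscCompat D (Z.ρ γ) := fun P P' h => by
  rw [Z.triv γ P, Z.triv γ P', h]

/-- the action of `Γ` on `M`. -/
def act (γ : Γ) (x : Z.M) : Z.M := ⟨Z.ρ γ • (x : Pic0 L F), Z.stab γ x.1 x.2⟩

@[simp] theorem coe_act (γ : Γ) (x : Z.M) : ((Z.act γ x : Z.M) : Pic0 L F) = Z.ρ γ • (x : Pic0 L F) :=
  rfl

/-- the reduction class of `x ∈ M`. -/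
def cl (x : Z.M) : Pic0 k Ft := redPic D (x : Pic0 L F)

theorem cl_act (γ : Γ) (x : Z.M) : Z.cl (Z.act γ x) = Z.cl x :=
  redPic_smul (Z.triv γ) _

theorem cl_add (x x' : Z.M) : Z.cl (x + x') = Z.cl x + Z.cl x' := by
  unfold cl
  rw [AddSubgroup.coe_add, map_add]

theorem sub_lift_mem_ker (x : Z.M) : (x : Pic0 L F) - Z.y (Z.cl x) ∈ (redPic D).ker := by
  rw [AddMonoidHom.mem_ker, map_sub, cl, Z.red_y x.1 x.2, sub_self]

/-- the coordinates `τ(x) = T(x − y(red x)) ∈ m_A^g`. -/
def tauV (x : Z.M) : Fin g → mA D :=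
  (S.kerEquiv Z.hRR).symm ⟨(x : Pic0 L F) - Z.y (Z.cl x), Z.sub_lift_mem_ker x⟩

theorem kap_tauV (x : Z.M) : S.kap (Z.tauV x) = (x : Pic0 L F) - Z.y (Z.cl x) := by
  have h := (S.kerEquiv Z.hRR).apply_symm_apply
    ⟨(x : Pic0 L F) - Z.y (Z.cl x), Z.sub_lift_mem_ker x⟩
  exact congrArg Subtype.val h

/-- characterisation of `tauV`. -/
theorem tauV_eq_of_kap {x : Z.M} {T : Fin g → mA D}
    (h : S.kap T = (x : Pic0 L F) - Z.y (Z.cl x)) : Z.tauV x = T :=
  S.kap_injective (by rw [Z.kap_tauV, h])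

/-- the coordinate functions `τ_i : M → L`. -/
def tau (i : Fin g) (x : Z.M) : L := ((Z.tauV x i : D.A) : L)

/-- the indicator functions `e_c : M → L`. -/
def ind (c : Pic0 k Ft) (x : Z.M) : L := by
  classical
  exact if Z.cl x = c then 1 else 0

theorem ind_apply (c : Pic0 k Ft) (x : Z.M) [Decidable (Z.cl x = c)] :
    Z.ind c x = if Z.cl x = c then 1 else 0 := by
  unfold ind
  congr

theorem ind_self (x : Z.M) : Z.ind (Z.cl x) x = 1 := by
  classical
  rw [ind_apply, if_pos rfl]

theorem ind_of_ne {c : Pic0 k Ft} {x : Z.M} (h : Z.cl x ≠ c) : Z.ind c x = 0 := by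
  classical
  rw [ind_apply, if_neg h]

/-- the (finite) set of reduction classes of `M`. -/
def classes : Set (Pic0 k Ft) := Set.range Z.cl

theorem classes_finite : Z.classes.Finite := Set.finite_range _

/-- **the generators**: the coordinate functions and the indicators of the reduction classes. -/
def gens : Set (Z.M → L) := Set.range Z.tau ∪ Z.ind '' Z.classes

theorem gens_finite : Z.gens.Finite :=
  (Set.finite_range _).union (Z.classes_finite.image _)

theorem tau_mem_gens (i : Fin g) : Z.tau i ∈ Z.gens := Or.inl ⟨i, rfl⟩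

theorem ind_mem_gens (x : Z.M) : Z.ind (Z.cl x) ∈ Z.gens := Or.inr ⟨Z.cl x, ⟨x, rfl⟩, rfl⟩

/-- `int`: the generators take values in `A`. -/
theorem gens_int : ∀ s ∈ Z.gens, ∀ x, s x ∈ D.A.toSubring := by
  classical
  rintro s (⟨i, rfl⟩ | ⟨c, _, rfl⟩) x
  · exact (Z.tauV x i : D.A).2
  · rw [ind_apply]
    split_ifs
    · exact D.A.toSubring.one_mem
    · exact D.A.toSubring.zero_mem

/-- equivariance of the coordinates. -/
theorem tau_act (i : Fin g) (γ : Γ) (x : Z.M) : Z.tau i (Z.act γ x) = γ • Z.tau i x := by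
  choose T' hT' using fun j => exists_act (Z.discCompat γ) (Z.fixes γ) j (Z.tauV x j)
  have h1 : Z.ρ γ • S.kap (Z.tauV x) = S.kap T' := smul_kap (Z.discCompat γ) (Z.fixes γ) hT'
  have h2 : Z.tauV (Z.act γ x) = T' := by
    apply Z.tauV_eq_of_kap
    have hfy : Z.ρ γ • Z.y (Z.cl x) = Z.y (Z.cl x) := Z.fix_y γ x.1 x.2
    rw [← h1, Z.kap_tauV, smul_sub, Z.cl_act, Z.coe_act, hfy]
  unfold tau
  rw [h2, hT' i, Z.base]

/-- `eqv`: the generators are `Γ`-equivariant. -/
theorem gens_eqv : ∀ s ∈ Z.gens, ∀ (γ : Γ) (x : Z.M), s (Z.act γ x) = γ • s x := by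
  classical
  rintro s (⟨i, rfl⟩ | ⟨c, _, rfl⟩) γ x
  · exact Z.tau_act i γ x
  · rw [ind_apply, ind_apply, Z.cl_act]
    split_ifs
    · rw [smul_one]
    · rw [smul_zero]

/-- `sep`: the generators separate the points of `M`. -/
theorem gens_sep : ∀ x x' : Z.M, (∀ s ∈ Z.gens, s x = s x') → x = x' := by
  intro x x' h
  have hc : Z.cl x' = Z.cl x := by
    by_contra hne
    have := h _ (Z.ind_mem_gens x)
    rw [Z.ind_self, Z.ind_of_ne hne] at this
    exact one_ne_zero this
  have ht : Z.tauV x = Z.tauV x' := by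
    funext i
    apply Subtype.ext
    apply Subtype.ext
    exact h _ (Z.tau_mem_gens i)
  have h1 := Z.kap_tauV x
  rw [ht, Z.kap_tauV x', hc] at h1
  apply Subtype.ext
  exact (sub_left_inj.mp h1).symm

end Setting

end

end Fermat.Agent.FF.INST.Gen0
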