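/-
Programme FF (S19), chapter INST (lead): **the approximate comultiplication of the generators**
`e_c`, `τ_i`, from F5's output (FG-out), and the assembly of helper2's `ApproxGen`.

* `FGOut S W` : the output of F5 in valuation-ring form: for every `W`-rational `δ ∈ ker(red)`, every
  bound `a ∈ m_A` and every precision `w ∈ W \ {0}` there are polynomials `p i` over `W` with
  `T_i(ξ + ξ' + δ) ≡ p i (T ξ, T ξ') mod w A` whenever the coordinates of `ξ, ξ'` are multiples of `a`.
* `exists_bound` : finitely many non-units of a valuation ring have a common non-unit divisor.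
* `aeval_mem_tensorSpan` : polynomial expressions in `(τ(x), τ(x'))` lie in `W[S] ⊗ W[S]`.
* `approxGen` : `ApproxGen W A.toSubring Z.act Z.gens`.
-/
import Mathlib
import Fermat.Agent.FF.INST.Gen0

set_option autoImplicit false
set_option linter.unusedSectionVars false
set_option linter.style.longLine false

namespace Fermat.Agent.FF.INST.Comul0

open AlgebraicCurve Fermat.Agent.X0.FF Fermat.Agent.RR.LSpace Fermat.Agent.MW.EMB.Value6
open Fermat.Agent.FF.RED.RedDatum7 Fermat.Agent.FF.RED.Disc7 Fermat.Agent.FF.KER.Ker0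
open Fermat.Agent.FF.KER.KerGal0 Fermat.Agent.FF.INST.Gen0 Fermat.Agent.FF.BASE.ApproxGen2

noncomputable section

variable {L F : Type} {k Ft : Type*} [Field L] [Field F] [Algebra L F] [Field k] [Field Ft]
  [Algebra k Ft]
variable {D : RedDatum L F k Ft} {g : ℕ}

/-- the pair of coordinate vectors as a valuation of the variables `Fin g ⊕ Fin g`. -/
def pairVal (T T' : Fin g → mA D) : Fin g ⊕ Fin g → L :=
  Sum.elim (fun j => ((T j : D.A) : L)) (fun j => ((T' j : D.A) : L))

/-- **(FG-out)**, the output of F5, in valuation-ring form. -/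
def FGOut (S : NSSystem D g) (W : Type) [CommRing W] [Algebra W L] : Prop :=
  ∀ δ : Fin g → mA D, (∀ i, ∃ w : W, algebraMap W L w = ((δ i : D.A) : L)) →
    ∀ a : D.A, ¬ IsUnit a → ∀ w : W, w ≠ 0 →
      ∃ p : Fin g → MvPolynomial (Fin g ⊕ Fin g) W,
        ∀ T T' T'' : Fin g → mA D,
          (∀ i, ∃ b : D.A, (T i : D.A) = a * b) → (∀ i, ∃ b : D.A, (T' i : D.A) = a * b) →
          S.kap T + S.kap T' + S.kap δ = S.kap T'' →
          ∀ i, ∃ b : D.A, ((T'' i : D.A) : L) - MvPolynomial.aeval (pairVal T T') (p i)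
            = algebraMap W L w * (b : L)

/-- finitely many non-units of a valuation ring have a common non-unit divisor. -/
theorem exists_bound {R : Type*} [CommRing R] [IsDomain R] [ValuationRing R] (s : Finset R)
    (hs : ∀ b ∈ s, ¬ IsUnit b) : ∃ a : R, ¬ IsUnit a ∧ ∀ b ∈ s, a ∣ b := by
  classical
  induction s using Finset.induction_on with
  | empty => exact ⟨0, not_isUnit_zero, fun b hb => absurd hb (Finset.notMem_empty b)⟩
  | insert c s hc ih =>
    obtain ⟨a, ha, hab⟩ := ih fun b hb => hs b (Finset.mem_insert_of_mem hb)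
    rcases ValuationRing.dvd_total a c with h | h
    · refine ⟨a, ha, fun b hb => ?_⟩
      rcases Finset.mem_insert.mp hb with rfl | hb
      · exact h
      · exact hab b hb
    · refine ⟨c, hs c (Finset.mem_insert_self c s), fun b hb => ?_⟩
      rcases Finset.mem_insert.mp hb with rfl | hb
      · exact dvd_rfl
      · exact h.trans (hab b hb)

variable {S : NSSystem D g} {Γ : Type} [Group Γ] [MulSemiringAction Γ L] (Z : Setting S Γ)
variable {W : Type} [CommRing W] [Algebra W L]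

/-- polynomial expressions in the coordinates of `x` and `x'` lie in `W[S] ⊗ W[S]`. -/
theorem aeval_mem_tensorSpan (q : MvPolynomial (Fin g ⊕ Fin g) W) :
    (fun p : Z.M × Z.M => MvPolynomial.aeval (pairVal (Z.tauV p.1) (Z.tauV p.2)) q)
      ∈ tensorSpan W Z.gens := by
  induction q using MvPolynomial.induction_on with
  | C w =>
    have : (fun p : Z.M × Z.M => MvPolynomial.aeval (pairVal (Z.tauV p.1) (Z.tauV p.2))
        (MvPolynomial.C w : MvPolynomial (Fin g ⊕ Fin g) W)) = w • (1 : Z.M × Z.M → L) := by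
      funext p
      rw [MvPolynomial.aeval_C, Pi.smul_apply, Pi.one_apply, Algebra.smul_def, mul_one]
    rw [this]
    exact Submodule.smul_mem _ w (one_mem_tensorSpan _)
  | add q q' hq hq' =>
    have : (fun p : Z.M × Z.M => MvPolynomial.aeval (pairVal (Z.tauV p.1) (Z.tauV p.2)) (q + q'))
        = (fun p : Z.M × Z.M => MvPolynomial.aeval (pairVal (Z.tauV p.1) (Z.tauV p.2)) q)
          + (fun p : Z.M × Z.M => MvPolynomial.aeval (pairVal (Z.tauV p.1) (Z.tauV p.2)) q') := by
      funext p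
      rw [map_add, Pi.add_apply]
    rw [this]
    exact Submodule.add_mem _ hq hq'
  | mul_X q j hq =>
    have hX : (fun p : Z.M × Z.M => MvPolynomial.aeval (pairVal (Z.tauV p.1) (Z.tauV p.2))
        (MvPolynomial.X j : MvPolynomial (Fin g ⊕ Fin g) W)) ∈ tensorSpan W Z.gens := by
      rcases j with j | j
      · have : (fun p : Z.M × Z.M => MvPolynomial.aeval (pairVal (Z.tauV p.1) (Z.tauV p.2))
            (MvPolynomial.X (Sum.inl j) : MvPolynomial (Fin g ⊕ Fin g) W))
            = tens (Z.tau j) (1 : Z.M → L) := by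
          funext p
          rw [MvPolynomial.aeval_X, tens_apply, Pi.one_apply, mul_one]
          rfl
        rw [this]
        exact tens_mem_tensorSpan (Algebra.subset_adjoin (Z.tau_mem_gens j)) (Subalgebra.one_mem _)
      · have : (fun p : Z.M × Z.M => MvPolynomial.aeval (pairVal (Z.tauV p.1) (Z.tauV p.2))
            (MvPolynomial.X (Sum.inr j) : MvPolynomial (Fin g ⊕ Fin g) W))
            = tens (1 : Z.M → L) (Z.tau j) := by
          funext p
          rw [MvPolynomial.aeval_X, tens_apply, Pi.one_apply, one_mul]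
          rfl
        rw [this]
        exact tens_mem_tensorSpan (Subalgebra.one_mem _) (Algebra.subset_adjoin (Z.tau_mem_gens j))
    have : (fun p : Z.M × Z.M => MvPolynomial.aeval (pairVal (Z.tauV p.1) (Z.tauV p.2))
        (q * MvPolynomial.X j))
        = (fun p : Z.M × Z.M => MvPolynomial.aeval (pairVal (Z.tauV p.1) (Z.tauV p.2)) q)
          * (fun p : Z.M × Z.M => MvPolynomial.aeval (pairVal (Z.tauV p.1) (Z.tauV p.2))
            (MvPolynomial.X j : MvPolynomial (Fin g ⊕ Fin g) W)) := by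
      funext p
      rw [map_mul, Pi.mul_apply]
    rw [this]
    exact tensorSpan_mul hq hX

/-- the product of two indicators, as a function on `M × M`. -/
theorem tens_ind_mem (x x' : Z.M) :
    tens (Z.ind (Z.cl x)) (Z.ind (Z.cl x')) ∈ tensorSpan W Z.gens :=
  tens_mem_tensorSpan (Algebra.subset_adjoin (Z.ind_mem_gens x))
    (Algebra.subset_adjoin (Z.ind_mem_gens x'))

theorem tens_ind_apply (x x' : Z.M) (p : Z.M × Z.M) [Decidable (Z.cl p.1 = Z.cl x ∧ Z.cl p.2 = Z.cl x')] :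
    tens (Z.ind (Z.cl x)) (Z.ind (Z.cl x')) p
      = if Z.cl p.1 = Z.cl x ∧ Z.cl p.2 = Z.cl x' then 1 else 0 := by
  classical
  rw [tens_apply, Z.ind_apply, Z.ind_apply]
  by_cases h1 : Z.cl p.1 = Z.cl x <;> by_cases h2 : Z.cl p.2 = Z.cl x' <;> simp [h1, h2]

/-! ### comultiplication of the indicators -/

/-- `e_c (x + x') = Σ_{c1 + c2 = c} e_{c1}(x) e_{c2}(x')`, exactly. -/
theorem approxComul_ind (x0 : Z.M) (w : W) :
    ApproxComul W D.A.toSubring Z.gens w (Z.ind (Z.cl x0)) := by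
  classical
  haveI : Fintype Z.M := Fintype.ofFinite _
  -- sum over pairs of elements (x1, x2) which are the chosen representatives of their classes
  let rep : Z.M → Z.M := fun x => (⟨x, rfl⟩ : ∃ x1, Z.cl x1 = Z.cl x).choose
  have hrep : ∀ x, Z.cl (rep x) = Z.cl x := fun x => (⟨x, rfl⟩ : ∃ x1, Z.cl x1 = Z.cl x).choose_spec
  have hrep' : ∀ x x', Z.cl x = Z.cl x' → rep x = rep x' := by
    intro x x' h
    show (⟨x, rfl⟩ : ∃ x1, Z.cl x1 = Z.cl x).choose = (⟨x', rfl⟩ : ∃ x1, Z.cl x1 = Z.cl x').choose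
    congr 1
    funext x1
    rw [h]
  let I : Finset (Z.M × Z.M) := Finset.univ.filter fun q =>
    rep q.1 = q.1 ∧ rep q.2 = q.2 ∧ Z.cl q.1 + Z.cl q.2 = Z.cl x0
  refine ⟨∑ q ∈ I, tens (Z.ind (Z.cl q.1)) (Z.ind (Z.cl q.2)),
    Submodule.sum_mem _ fun q _ => tens_ind_mem Z q.1 q.2, fun p => ⟨0, D.A.toSubring.zero_mem, ?_⟩⟩
  rw [mul_zero, sub_eq_zero, Finset.sum_apply]
  by_cases hp : Z.cl p.1 + Z.cl p.2 = Z.cl x0
  · rw [Finset.sum_eq_single (rep p.1, rep p.2)]
    · rw [tens_ind_apply, if_pos ⟨(hrep p.1).symm, (hrep p.2).symm⟩, Z.ind_apply, if_pos]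
      rw [Z.cl_add, hp]
    · intro q hq hne
      rw [tens_ind_apply, if_neg]
      rintro ⟨h1, h2⟩
      apply hne
      obtain ⟨hq1, hq2, _⟩ := (Finset.mem_filter.mp hq).2
      refine Prod.ext ?_ ?_
      · show q.1 = rep p.1
        rw [← hq1]
        exact hrep' _ _ h1.symm
      · show q.2 = rep p.2
        rw [← hq2]
        exact hrep' _ _ h2.symm
    · intro hnot
      exfalso
      apply hnot
      rw [Finset.mem_filter]
      refine ⟨Finset.mem_univ _, hrep' _ _ (hrep p.1), hrep' _ _ (hrep p.2), ?_⟩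
      show Z.cl (rep p.1) + Z.cl (rep p.2) = Z.cl x0
      rw [hrep, hrep, hp]
  · rw [Z.ind_apply, if_neg (by rw [Z.cl_add]; exact hp)]
    symm
    refine Finset.sum_eq_zero fun q hq => ?_
    rw [tens_ind_apply, if_neg]
    rintro ⟨h1, h2⟩
    apply hp
    obtain ⟨_, _, hq3⟩ := (Finset.mem_filter.mp hq).2
    rw [h1, h2, hq3]

/-! ### comultiplication of the coordinates -/

/-- the correction class `δ(x, x') = y(c) + y(c') − y(c + c')`, in the kernel of reduction. -/
theorem delta_mem_ker (x x' : Z.M) :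
    Z.y (Z.cl x) + Z.y (Z.cl x') - Z.y (Z.cl x + Z.cl x') ∈ (redPic D).ker := by
  have h3 : redPic D (Z.y (Z.cl x + Z.cl x')) = Z.cl x + Z.cl x' := by
    rw [← Z.cl_add]
    exact Z.red_y (x + x').1 (x + x').2
  rw [AddMonoidHom.mem_ker, map_sub, map_add, h3]
  have h1 : redPic D (Z.y (Z.cl x)) = Z.cl x := Z.red_y x.1 x.2
  have h2 : redPic D (Z.y (Z.cl x')) = Z.cl x' := Z.red_y x'.1 x'.2
  rw [h1, h2, sub_self]

/-- the coordinates of `δ(x, x')`. -/
def deltaV (x x' : Z.M) : Fin g → mA D :=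
  (S.kerEquiv Z.hRR).symm ⟨_, delta_mem_ker Z x x'⟩

theorem kap_deltaV (x x' : Z.M) :
    S.kap (deltaV Z x x') = Z.y (Z.cl x) + Z.y (Z.cl x') - Z.y (Z.cl x + Z.cl x') := by
  have h := (S.kerEquiv Z.hRR).apply_symm_apply ⟨_, delta_mem_ker Z x x'⟩
  exact congrArg Subtype.val h

/-- the coordinates of `δ(x, x')` are `Γ`-fixed. -/
theorem deltaV_fixed (x x' : Z.M) (γ : Γ) (i : Fin g) :
    γ • ((deltaV Z x x' i : D.A) : L) = ((deltaV Z x x' i : D.A) : L) := by
  rw [← Z.base]
  refine coord_fixed_of_smul_eq (Z.discCompat γ) (Z.fixes γ) ?_ i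
  rw [kap_deltaV, smul_sub, smul_add]
  have h1 : Z.ρ γ • Z.y (Z.cl x) = Z.y (Z.cl x) := Z.fix_y γ x.1 x.2
  have h2 : Z.ρ γ • Z.y (Z.cl x') = Z.y (Z.cl x') := Z.fix_y γ x'.1 x'.2
  have h3 : Z.ρ γ • Z.y (Z.cl x + Z.cl x') = Z.y (Z.cl x + Z.cl x') := by
    rw [← Z.cl_add]
    exact Z.fix_y γ (x + x').1 (x + x').2
  rw [h1, h2, h3]

/-- the key identity: `kap τ(x) + kap τ(x') + kap δ(x,x') = kap τ(x + x')`. -/
theorem kap_tauV_add (x x' : Z.M) :
    S.kap (Z.tauV x) + S.kap (Z.tauV x') + S.kap (deltaV Z x x') = S.kap (Z.tauV (x + x')) := by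
  rw [Z.kap_tauV, Z.kap_tauV, Z.kap_tauV, kap_deltaV, Z.cl_add, AddSubgroup.coe_add]
  abel

/-- `deltaV` only depends on the classes. -/
theorem deltaV_congr {x1 x1' x2 x2' : Z.M} (h1 : Z.cl x1 = Z.cl x2) (h1' : Z.cl x1' = Z.cl x2') :
    deltaV Z x1 x1' = deltaV Z x2 x2' := by
  apply S.kap_injective
  rw [kap_deltaV, kap_deltaV, h1, h1']

/-- **the approximate comultiplication of `τ_i`** from (FG-out). -/
theorem approxComul_tau (hWA : ∀ w : W, algebraMap W L w ∈ D.A)
    (hWfix : ∀ a : D.A, (∀ γ : Γ, γ • (a : L) = (a : L)) → ∃ w : W, algebraMap W L w = (a : L))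
    (hFG : FGOut S W) (i : Fin g) (w : W) (hw : w ≠ 0) :
    ApproxComul W D.A.toSubring Z.gens w (Z.tau i) := by
  classical
  haveI : Fintype Z.M := Fintype.ofFinite _
  -- a common bound for all coordinates
  obtain ⟨a, ha, hab⟩ := exists_bound
    (Finset.univ.image fun q : Z.M × Fin g => (Z.tauV q.1 q.2 : D.A)) (by
      intro b hb
      obtain ⟨q, _, rfl⟩ := Finset.mem_image.mp hb
      exact not_isUnit_of_mA _)
  have hbound : ∀ (x : Z.M) (j : Fin g), ∃ b : D.A, (Z.tauV x j : D.A) = a * b := fun x j =>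
    hab _ (Finset.mem_image.mpr ⟨(x, j), Finset.mem_univ _, rfl⟩)
  -- the polynomials, for each pair of elements
  have hpoly : ∀ q : Z.M × Z.M, ∃ p : Fin g → MvPolynomial (Fin g ⊕ Fin g) W,
      ∀ T T' T'' : Fin g → mA D,
        (∀ i, ∃ b : D.A, (T i : D.A) = a * b) → (∀ i, ∃ b : D.A, (T' i : D.A) = a * b) →
        S.kap T + S.kap T' + S.kap (deltaV Z q.1 q.2) = S.kap T'' →
        ∀ i, ∃ b : D.A, ((T'' i : D.A) : L) - MvPolynomial.aeval (pairVal T T') (p i)
          = algebraMap W L w * (b : L) := fun q =>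
    hFG (deltaV Z q.1 q.2) (fun j => hWfix _ (fun γ => deltaV_fixed Z q.1 q.2 γ j)) a ha w hw
  choose poly hpoly' using hpoly
  -- representatives of the classes
  let rep : Z.M → Z.M := fun x => (⟨x, rfl⟩ : ∃ x1, Z.cl x1 = Z.cl x).choose
  have hrep : ∀ x, Z.cl (rep x) = Z.cl x := fun x => (⟨x, rfl⟩ : ∃ x1, Z.cl x1 = Z.cl x).choose_spec
  have hrep' : ∀ x x', Z.cl x = Z.cl x' → rep x = rep x' := by
    intro x x' h
    show (⟨x, rfl⟩ : ∃ x1, Z.cl x1 = Z.cl x).choose = (⟨x', rfl⟩ : ∃ x1, Z.cl x1 = Z.cl x').choose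
    congr 1
    funext x1
    rw [h]
  let I : Finset (Z.M × Z.M) := Finset.univ.filter fun q => rep q.1 = q.1 ∧ rep q.2 = q.2
  let G : Z.M × Z.M → Z.M × Z.M → L := fun q p =>
    MvPolynomial.aeval (pairVal (Z.tauV p.1) (Z.tauV p.2)) (poly q i)
  refine ⟨∑ q ∈ I, tens (Z.ind (Z.cl q.1)) (Z.ind (Z.cl q.2)) * G q,
    Submodule.sum_mem _ fun q _ => tensorSpan_mul (tens_ind_mem Z q.1 q.2)
      (aeval_mem_tensorSpan Z (poly q i)), fun p => ?_⟩
  -- only the term of the classes of `p` survives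
  have hsum : (∑ q ∈ I, tens (Z.ind (Z.cl q.1)) (Z.ind (Z.cl q.2)) * G q) p
      = G (rep p.1, rep p.2) p := by
    rw [Finset.sum_apply, Finset.sum_eq_single (rep p.1, rep p.2)]
    · rw [Pi.mul_apply, tens_ind_apply, if_pos ⟨(hrep p.1).symm, (hrep p.2).symm⟩, one_mul]
    · intro q hq hne
      rw [Pi.mul_apply, tens_ind_apply, if_neg, zero_mul]
      rintro ⟨h1, h2⟩
      apply hne
      obtain ⟨hq1, hq2⟩ := (Finset.mem_filter.mp hq).2
      refine Prod.ext ?_ ?_
      · show q.1 = rep p.1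
        rw [← hq1]
        exact hrep' _ _ h1.symm
      · show q.2 = rep p.2
        rw [← hq2]
        exact hrep' _ _ h2.symm
    · intro hnot
      exfalso
      apply hnot
      rw [Finset.mem_filter]
      exact ⟨Finset.mem_univ _, hrep' _ _ (hrep p.1), hrep' _ _ (hrep p.2)⟩
  have hδ : deltaV Z (rep p.1) (rep p.2) = deltaV Z p.1 p.2 := deltaV_congr Z (hrep _) (hrep _)
  obtain ⟨b, hb⟩ := hpoly' (rep p.1, rep p.2) (Z.tauV p.1) (Z.tauV p.2) (Z.tauV (p.1 + p.2))
    (hbound p.1) (hbound p.2) (by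
      show S.kap (Z.tauV p.1) + S.kap (Z.tauV p.2) + S.kap (deltaV Z (rep p.1) (rep p.2)) = _
      rw [hδ]
      exact kap_tauV_add Z p.1 p.2) i
  refine ⟨(b : L), b.2, ?_⟩
  show Z.tau i (p.1 + p.2) - (∑ q ∈ I, tens (Z.ind (Z.cl q.1)) (Z.ind (Z.cl q.2)) * G q) p = _
  rw [hsum, ← hb]
  rfl

/-- **The generators `{τ_i} ∪ {e_c}` form an approximate Hopf generating set.** -/
theorem approxGen (hWA : ∀ w : W, algebraMap W L w ∈ D.A)
    (hWfix : ∀ a : D.A, (∀ γ : Γ, γ • (a : L) = (a : L)) → ∃ w : W, algebraMap W L w = (a : L))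
    (hFG : FGOut S W) : ApproxGen W D.A.toSubring Z.act Z.gens where
  fin := Z.gens_finite
  int := Z.gens_int
  eqv := Z.gens_eqv
  sep := Z.gens_sep
  comul := by
    rintro s (⟨i, rfl⟩ | ⟨c, ⟨x0, rfl⟩, rfl⟩) w hw
    · exact approxComul_tau Z hWA hWfix hFG i w hw
    · exact approxComul_ind Z x0 w

end

end Fermat.Agent.FF.INST.Comul0
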