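/-
Programme FF (S19), chapter INST (lead): **weak approximation for the orders at finitely many places**
of a function field (classical valuation-ring proof; characteristic-free, no Riemann–Roch), and the
**moving lemma**.

* `exists_mem_not_mem` : distinct places have incomparable valuation rings;
* `exists_pos_neg` : `v ≠ w ⇒ ∃ u, ord_v u > 0 ∧ ord_w u < 0`;
* `exists_pos_forall_neg` : `v ∉ s ⇒ ∃ u, ord_v u > 0 ∧ ∀ w ∈ s, ord_w u < 0`;
* `exists_near_one` : `v ∉ s ⇒ ∃ e, ord_v (e − 1) > 0 ∧ ∀ w ∈ s, ord_w e > 0`;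
* `exists_ord_eq_forall` : **∀ finite `s`, ∀ `e : Place → ℤ`, ∃ f ≠ 0, ∀ v ∈ s, ord_v f = e v`**;
* `exists_move` : for a divisor `E` and a finite set `Bad` there is `f ≠ 0` with
  `(E + div f) v = 0` on `Bad`.
-/
import Mathlib
import Fermat.Agent.RR.LSpace

set_option autoImplicit false
set_option linter.unusedSectionVars false

namespace Fermat.Agent.FF.INST.Approx0

open AlgebraicCurve Fermat.Agent.X0.FF

variable {K F : Type*} [Field K] [Field F] [Algebra K F]

theorem exists_ord_eq' (v : Place K F) (n : ℤ) : ∃ a : F, a ≠ 0 ∧ v.ord a = n := by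
  obtain ⟨π, hπ⟩ := IsDiscreteValuationRing.exists_irreducible v.toValuationSubring
  have hπ0 : (π : F) ≠ 0 := by
    intro h0
    exact hπ.ne_zero (Subtype.ext h0)
  refine ⟨(π : F) ^ n, zpow_ne_zero n hπ0, ?_⟩
  rw [v.ord_zpow, v.ord_coe_irreducible hπ, mul_one]

theorem exists_mem_not_mem {v w : Place K F} (h : v ≠ w) :
    ∃ a : F, a ∈ v.toValuationSubring ∧ a ∉ w.toValuationSubring := by
  by_contra hcon
  push Not at hcon
  have hle : v.toValuationSubring ≤ w.toValuationSubring := fun a ha => hcon a ha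
  exact h (Place.ext (ValuationSubring.eq_of_le_of_ne_top (A := v.toValuationSubring) hle w.ne_top'))

theorem ord_neg_of_not_mem {v : Place K F} {a : F} (h : a ∉ v.toValuationSubring) : v.ord a < 0 := by
  by_contra hcon
  exact h (ffp_mem_of_ord_nonneg v (not_lt.mp hcon))

theorem ne_zero_of_not_mem {v : Place K F} {a : F} (h : a ∉ v.toValuationSubring) : a ≠ 0 := by
  rintro rfl
  exact h v.toValuationSubring.zero_mem

theorem exists_pos_neg {v w : Place K F} (h : v ≠ w) :
    ∃ u : F, u ≠ 0 ∧ 0 < v.ord u ∧ w.ord u < 0 := by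
  obtain ⟨y1, hy1v, hy1w⟩ := exists_mem_not_mem h
  obtain ⟨y2, hy2w, hy2v⟩ := exists_mem_not_mem (Ne.symm h)
  have h1 : y1 ≠ 0 := ne_zero_of_not_mem hy1w
  have h2 : y2 ≠ 0 := ne_zero_of_not_mem hy2v
  refine ⟨y1 * y2⁻¹, mul_ne_zero h1 (inv_ne_zero h2), ?_, ?_⟩
  · rw [v.ord_mul h1 (inv_ne_zero h2), Place.ord_inv]
    have := ffp_ord_nonneg_of_mem v hy1v
    have := ord_neg_of_not_mem hy2v
    omega
  · rw [w.ord_mul h1 (inv_ne_zero h2), Place.ord_inv]
    have := ffp_ord_nonneg_of_mem w hy2w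
    have := ord_neg_of_not_mem hy1w
    omega

/-- the order of a sum of two nonzero elements of different orders. -/
theorem ord_add_le_of_ne (v : Place K F) {f g : F} (hf : f ≠ 0) (hg : g ≠ 0)
    (h : v.ord f ≠ v.ord g) : v.ord (f + g) = min (v.ord f) (v.ord g) := by
  rcases lt_or_gt_of_ne h with h1 | h1
  · rw [ffp_ord_add_eq_of_lt v hf h1, min_eq_left h1.le]
  · rw [add_comm, ffp_ord_add_eq_of_lt v hg h1, min_eq_right h1.le]

theorem ord_pow' (v : Place K F) (f : F) (n : ℕ) : v.ord (f ^ n) = n * v.ord f := by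
  have := v.ord_zpow f n
  rwa [zpow_natCast] at this

theorem exists_pos_forall_neg (v : Place K F) (s : Finset (Place K F)) (hv : v ∉ s) :
    ∃ u : F, u ≠ 0 ∧ 0 < v.ord u ∧ ∀ w ∈ s, w.ord u < 0 := by
  classical
  induction s using Finset.induction_on with
  | empty =>
    obtain ⟨a, ha, hord⟩ := exists_ord_eq' v 1
    exact ⟨a, ha, by omega, fun w hw => absurd hw (Finset.notMem_empty w)⟩
  | insert w0 s hw0 ih =>
    have hvs : v ∉ s := fun h => hv (Finset.mem_insert_of_mem h)
    have hvw0 : v ≠ w0 := fun h => hv (h ▸ Finset.mem_insert_self _ _)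
    obtain ⟨y, hy0, hyv, hys⟩ := ih hvs
    by_cases hw0y : w0.ord y < 0
    · refine ⟨y, hy0, hyv, fun w hw => ?_⟩
      rcases Finset.mem_insert.mp hw with rfl | hw
      · exact hw0y
      · exact hys w hw
    · obtain ⟨z, hz0, hzv, hzw0⟩ := exists_pos_neg hvw0
      set r : ℕ := 1 + ∑ w ∈ s, (w.ord y).natAbs with hr
      have hr1 : 1 ≤ r := by omega
      have hzr0 : z ^ r ≠ 0 := pow_ne_zero r hz0
      have hne : ∀ w ∈ s, w.ord y ≠ w.ord (z ^ r) := by
        intro w hw heq
        rw [ord_pow'] at heq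
        have hlt : (w.ord y).natAbs < r := by
          have := Finset.single_le_sum (f := fun w : Place K F => (w.ord y).natAbs)
            (fun _ _ => Nat.zero_le _) hw
          omega
        have hyneg := hys w hw
        by_cases hz : w.ord z = 0
        · rw [hz, mul_zero] at heq
          omega
        · have h1 : ((w.ord y).natAbs : ℤ) = |(r : ℤ) * w.ord z| := by
            rw [← heq, Int.abs_eq_natAbs]
          rw [abs_mul, Nat.abs_cast] at h1
          have h2 : (1 : ℤ) ≤ |w.ord z| := Int.one_le_abs hz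
          have h3 : (r : ℤ) ≤ (r : ℤ) * |w.ord z| := by nlinarith
          have h4 : ((w.ord y).natAbs : ℤ) < r := by exact_mod_cast hlt
          omega
      have hu0 : y + z ^ r ≠ 0 := by
        intro h0
        have hyz : y = -(z ^ r) := eq_neg_of_add_eq_zero_left h0
        have : w0.ord y = (r : ℤ) * w0.ord z := by rw [hyz, ffp_ord_neg, ord_pow']
        have h3 : (r : ℤ) * w0.ord z < 0 := by
          have : (0 : ℤ) < r := by exact_mod_cast hr1
          nlinarith
        omega
      refine ⟨y + z ^ r, hu0, ?_, fun w hw => ?_⟩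
      · have h1 : (1 : ℤ) ≤ v.ord y := hyv
        have h2 : (1 : ℤ) ≤ v.ord (z ^ r) := by
          rw [ord_pow']
          have : (1 : ℤ) ≤ r := by exact_mod_cast hr1
          nlinarith
        have := ffp_le_ord_add v h1 h2 hu0
        omega
      · rcases Finset.mem_insert.mp hw with rfl | hw
        · have h1 : w.ord (z ^ r) < w.ord y := by
            rw [ord_pow']
            have : (1 : ℤ) ≤ r := by exact_mod_cast hr1
            have h2 : (r : ℤ) * w.ord z < 0 := by nlinarith
            omega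
          rw [add_comm, ffp_ord_add_eq_of_lt w hzr0 h1, ord_pow']
          have : (1 : ℤ) ≤ r := by exact_mod_cast hr1
          nlinarith
        · rw [ord_add_le_of_ne w hy0 hzr0 (hne w hw)]
          exact lt_of_le_of_lt (min_le_left _ _) (hys w hw)

theorem exists_near_one (v : Place K F) (s : Finset (Place K F)) (hv : v ∉ s) :
    ∃ e : F, e ≠ 0 ∧ v.ord e = 0 ∧ (e = 1 ∨ 0 < v.ord (e - 1)) ∧ ∀ w ∈ s, 0 < w.ord e := by
  obtain ⟨u, hu0, huv, hus⟩ := exists_pos_forall_neg v s hv
  have h1u : (1 : F) + u ≠ 0 := by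
    intro h0
    have : u = -1 := eq_neg_of_add_eq_zero_right h0
    rw [this, ffp_ord_neg, Place.ord_one] at huv
    exact lt_irrefl _ huv
  have hv1u : v.ord (1 + u) = 0 := by
    rw [ffp_ord_add_eq_of_lt v one_ne_zero (by rw [Place.ord_one]; exact huv), Place.ord_one]
  refine ⟨(1 + u)⁻¹, inv_ne_zero h1u, by rw [Place.ord_inv, hv1u, neg_zero], Or.inr ?_,
    fun w hw => ?_⟩
  · have : (1 + u)⁻¹ - 1 = -u * (1 + u)⁻¹ := by
      field_simp
      ring
    rw [this, v.ord_mul (neg_ne_zero.mpr hu0) (inv_ne_zero h1u), ffp_ord_neg, Place.ord_inv, hv1u]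
    omega
  · have hwu := hus w hw
    have : w.ord (1 + u) = w.ord u := by
      rw [add_comm, ffp_ord_add_eq_of_lt w hu0 (by rw [Place.ord_one]; exact hwu)]
    rw [Place.ord_inv, this]
    omega

/-- `g` is zero or has order `> n` at `v`. -/
def Gt (v : Place K F) (n : ℤ) (g : F) : Prop := g = 0 ∨ n < v.ord g

theorem Gt.add {v : Place K F} {n : ℤ} {g h : F} (hg : Gt v n g) (hh : Gt v n h) :
    Gt v n (g + h) := by
  rcases hg with rfl | hg
  · rwa [zero_add]
  rcases hh with rfl | hh
  · rw [add_zero]; exact Or.inr hg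
  by_cases h0 : g + h = 0
  · exact Or.inl h0
  · right
    have := ffp_le_ord_add v (n := n + 1) (by omega) (by omega) h0
    omega

theorem Gt.sum {v : Place K F} {n : ℤ} {ι : Type*} (s : Finset ι) (g : ι → F)
    (h : ∀ i ∈ s, Gt v n (g i)) : Gt v n (∑ i ∈ s, g i) := by
  classical
  induction s using Finset.induction_on with
  | empty => exact Or.inl (by simp)
  | insert i s hi ih =>
    rw [Finset.sum_insert hi]
    exact (h i (Finset.mem_insert_self _ _)).add
      (ih fun j hj => h j (Finset.mem_insert_of_mem hj))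

theorem ord_add_of_gt {v : Place K F} {a b : F} (ha : a ≠ 0) (hb : Gt v (v.ord a) b) :
    a + b ≠ 0 ∧ v.ord (a + b) = v.ord a := by
  rcases hb with rfl | hb
  · rw [add_zero]; exact ⟨ha, rfl⟩
  · refine ⟨?_, ffp_ord_add_eq_of_lt v ha hb⟩
    intro h0
    have : b = -a := eq_neg_of_add_eq_zero_right h0
    rw [this, ffp_ord_neg] at hb
    exact lt_irrefl _ hb

/-- **Weak approximation for orders.** -/
theorem exists_ord_eq_forall (s : Finset (Place K F)) (e : Place K F → ℤ) :
    ∃ f : F, f ≠ 0 ∧ ∀ v ∈ s, v.ord f = e v := by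
  classical
  by_cases hs : s = ∅
  · subst hs
    exact ⟨1, one_ne_zero, fun v hv => absurd hv (Finset.notMem_empty v)⟩
  -- local data
  have h1 : ∀ v : Place K F, ∃ t : F, t ≠ 0 ∧ v.ord t = e v := fun v =>
    exists_ord_eq' v (e v)
  choose t ht0 htv using h1
  have h2 : ∀ v : Place K F, ∃ c : F, c ≠ 0 ∧ v.ord c = 0 ∧ ∀ w ∈ s.erase v, 0 < w.ord c := fun v => by
    obtain ⟨c, hc0, hcv, _, hcs⟩ := exists_near_one v (s.erase v) (Finset.notMem_erase v s)
    exact ⟨c, hc0, hcv, hcs⟩
  choose c hc0 hcv hcs using h2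
  set N : ℕ := 1 + ∑ v ∈ s, ∑ w ∈ s, (e v - v.ord (t w)).natAbs with hN
  have hNbound : ∀ v ∈ s, ∀ w ∈ s, e v - v.ord (t w) < N := by
    intro v hv w hw
    have h1 := Finset.single_le_sum (f := fun w : Place K F => (e v - v.ord (t w)).natAbs)
      (fun _ _ => Nat.zero_le _) hw
    have h2 := Finset.single_le_sum
      (f := fun v : Place K F => ∑ w ∈ s, (e v - v.ord (t w)).natAbs) (fun _ _ => Nat.zero_le _) hv
    have h3 : e v - v.ord (t w) ≤ ((e v - v.ord (t w)).natAbs : ℤ) := Int.le_natAbs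
    have h4 : ((e v - v.ord (t w)).natAbs : ℤ) < N := by
      have : (e v - v.ord (t w)).natAbs < N := by
        omega
      exact_mod_cast this
    omega
  set term : Place K F → F := fun w => c w ^ N * t w with hterm
  have hterm0 : ∀ w, term w ≠ 0 := fun w => mul_ne_zero (pow_ne_zero N (hc0 w)) (ht0 w)
  have hterm_self : ∀ v, v.ord (term v) = e v := by
    intro v
    rw [hterm]
    simp only
    rw [v.ord_mul (pow_ne_zero N (hc0 v)) (ht0 v), ord_pow', hcv, mul_zero, zero_add, htv]
  have hterm_other : ∀ v ∈ s, ∀ w ∈ s, w ≠ v → e v < v.ord (term w) := by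
    intro v hv w hw hwv
    rw [hterm]
    simp only
    rw [v.ord_mul (pow_ne_zero N (hc0 w)) (ht0 w), ord_pow']
    have hpos : (1 : ℤ) ≤ v.ord (c w) := hcs w v (Finset.mem_erase.mpr ⟨Ne.symm hwv, hv⟩)
    have hb := hNbound v hv w hw
    have hN0 : (0 : ℤ) ≤ N := Int.natCast_nonneg N
    nlinarith
  have key : ∀ v ∈ s, (∑ w ∈ s, term w) ≠ 0 ∧ v.ord (∑ w ∈ s, term w) = e v := by
    intro v hv
    rw [← Finset.add_sum_erase s term hv]
    have hgt : Gt v (v.ord (term v)) (∑ w ∈ s.erase v, term w) := by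
      apply Gt.sum
      intro w hw
      right
      rw [hterm_self v]
      exact hterm_other v hv w (Finset.mem_of_mem_erase hw) (Finset.ne_of_mem_erase hw)
    have := ord_add_of_gt (hterm0 v) hgt
    rw [hterm_self v] at this
    exact this
  obtain ⟨v0, hv0⟩ := Finset.nonempty_iff_ne_empty.mpr hs
  exact ⟨∑ w ∈ s, term w, (key v0 hv0).1, fun v hv => (key v hv).2⟩

/-- **Moving lemma**: a divisor can be moved off a finite set of places by a principal divisor. -/
theorem exists_move (E : Divisor K F) (Bad : Finset (Place K F)) :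
    ∃ f : F, f ≠ 0 ∧ ∀ v ∈ Bad, E v + v.ord f = 0 := by
  obtain ⟨f, hf, h⟩ := exists_ord_eq_forall Bad (fun v => -(E v))
  exact ⟨f, hf, fun v hv => by rw [h v hv]; ring⟩

end Fermat.Agent.FF.INST.Approx0
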