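/-
Programme FF (S19), chapter INST (lead): **(L) unramified lifts, from `Γ`-fixed places in all discs
OUTSIDE a finite set** (what F0's `t − Teichmüller(c)` uniformizers provide).  Moving lemma on the
reduction (`Approx0.exists_move`): the reduction of a class has a representative supported off `Bad`;
lift its points to the `Γ`-fixed places of their discs.

* `exists_fixed_lift'`, `exists_lifts'` (same conclusions as `Lift0`, weaker hypothesis, and no
  non-special system / Riemann inequality needed).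
-/
import Mathlib
import Fermat.Agent.FF.INST.Gen0
import Fermat.Agent.FF.INST.Approx0

set_option autoImplicit false
set_option linter.unusedSectionVars false
set_option linter.style.longLine false

namespace Fermat.Agent.FF.INST.Lift1

open AlgebraicCurve Fermat.Agent.X0.FF Fermat.Agent.RR.LSpace Fermat.Agent.MW.EMB.Value6
open Fermat.Agent.FF.RED.RedDatum7 Fermat.Agent.FF.RED.Disc7 Fermat.Agent.FF.KER.Ker0
open Fermat.Agent.FF.INST.Approx0

noncomputable section

variable {L F : Type} {k Ft : Type*} [Field L] [Field F] [Algebra L F] [Field k] [Field Ft]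
  [Algebra k Ft]
variable {D : RedDatum L F k Ft}

/-- lifting the points of a divisor of the reduction preserves the degree. -/
theorem degree_mapDomain_lift (HL : LHyp L F) (Hk : LHyp k Ft) (φ : Place k Ft → Place L F)
    (E : Divisor k Ft) :
    Divisor.degree (Finsupp.mapDomain φ E) = Divisor.degree E := by
  have h : (Divisor.degree (K := L) (F := F)).comp (Finsupp.mapDomain.addMonoidHom φ)
      = Divisor.degree (K := k) (F := Ft) := by
    apply Finsupp.addHom_ext
    intro P n
    rw [AddMonoidHom.comp_apply, Finsupp.mapDomain.addMonoidHom_apply, Finsupp.mapDomain_single,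
      degree_single HL, degree_single Hk]
  exact DFunLike.congr_fun h E

variable {Γ : Type} [Group Γ] (ρ : Γ →* SemilinearAut L F)

/-- **(L)**: a `Γ`-fixed lift of the reduction of a class, from `Γ`-fixed places off `Bad`. -/
theorem exists_fixed_lift' (Bad : Finset (Place k Ft))
    (hunr : ∀ Q : Place k Ft, Q ∉ Bad → ∃ P : Place L F, D.r P = Q ∧ ∀ γ : Γ, ρ γ • P = P)
    (x : Pic0 L F) : ∃ y : Pic0 L F, redPic D y = redPic D x ∧ ∀ γ : Γ, ρ γ • y = y := by
  classical
  obtain ⟨D', rfl⟩ := Pic0.mk_surjective x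
  set Dt : Divisor k Ft := Finsupp.mapDomain D.r (D' : Divisor L F) with hDt
  obtain ⟨ft, hft, hmove⟩ := exists_move Dt Bad
  set Dt' : Divisor k Ft := Dt + divOf D.Hk hft with hDt'
  have hDt'Bad : ∀ Q ∈ Bad, Dt' Q = 0 := by
    intro Q hQ
    rw [hDt', Finsupp.add_apply, divOf_apply]
    exact hmove Q hQ
  have hDt'deg : Divisor.degree Dt' = 0 := by
    rw [hDt', map_add, degree_divOf, add_zero, hDt, degree_mapDomain,
      Divisor.mem_degZero.mp D'.2]
  -- centres
  have hc : ∀ Q : Place k Ft, ∃ P : Place L F, D.r P = Q ∧ (Q ∉ Bad → ∀ γ : Γ, ρ γ • P = P) := by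
    intro Q
    by_cases hQ : Q ∈ Bad
    · obtain ⟨P, hP⟩ := D.r_surj Q
      exact ⟨P, hP, fun h => absurd hQ h⟩
    · obtain ⟨P, hP, hfix⟩ := hunr Q hQ
      exact ⟨P, hP, fun _ => hfix⟩
  choose centre hcr hcfix using hc
  set Ec : Divisor L F := Finsupp.mapDomain centre Dt' with hEc
  have hEcr : Finsupp.mapDomain D.r Ec = Dt' := by
    rw [hEc, ← Finsupp.mapDomain_comp]
    have : D.r ∘ centre = id := funext hcr
    rw [this, Finsupp.mapDomain_id]
  have hEcdeg : Divisor.degree Ec = 0 := by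
    rw [hEc, degree_mapDomain_lift D.HL D.Hk, hDt'deg]
  have hEcfix : ∀ γ : Γ, ρ γ • Ec = Ec := by
    intro γ
    rw [SemilinearAut.divisor_smul_def, hEc, ← Finsupp.mapDomain_comp]
    apply Finsupp.mapDomain_congr
    intro Q hQ
    have hQBad : Q ∉ Bad := by
      intro hb
      rw [Finsupp.mem_support_iff] at hQ
      exact hQ (hDt'Bad Q hb)
    exact hcfix Q hQBad γ
  let yd : Divisor.degZero (K := L) (F := F) := ⟨Ec, Divisor.mem_degZero.mpr hEcdeg⟩
  refine ⟨Pic0.mk yd, ?_, fun γ => ?_⟩
  · rw [← sub_eq_zero, ← map_sub]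
    have : Pic0.mk yd - Pic0.mk D' = Pic0.mk (yd - D') := rfl
    rw [this, redPic_mk_eq_zero_iff]
    have hcoe : ((yd - D' : Divisor.degZero (K := L) (F := F)) : Divisor L F)
        = Ec - (D' : Divisor L F) := rfl
    rw [hcoe, mapDomain_sub', hEcr, hDt', ← hDt, add_sub_cancel_left]
    exact ⟨ft, hft, fun Q => divOf_apply D.Hk hft Q⟩
  · rw [SemilinearAut.pic0_smul_mk]
    congr 1
    apply Subtype.ext
    rw [SemilinearAut.coe_degZeroSMulHom]
    exact hEcfix γ

/-- the lifts, as a function of the reduction class. -/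
theorem exists_lifts' (Bad : Finset (Place k Ft))
    (hunr : ∀ Q : Place k Ft, Q ∉ Bad → ∃ P : Place L F, D.r P = Q ∧ ∀ γ : Γ, ρ γ • P = P) :
    ∃ y : Pic0 k Ft → Pic0 L F, (∀ x : Pic0 L F, redPic D (y (redPic D x)) = redPic D x) ∧
      ∀ (γ : Γ) (x : Pic0 L F), ρ γ • y (redPic D x) = y (redPic D x) := by
  classical
  have key : ∀ c : Pic0 k Ft, ∃ y : Pic0 L F, (∀ x : Pic0 L F, redPic D x = c → redPic D y = c) ∧
      ((∃ x : Pic0 L F, redPic D x = c) → ∀ γ : Γ, ρ γ • y = y) := by
    intro c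
    by_cases h : ∃ x : Pic0 L F, redPic D x = c
    · obtain ⟨x0, hx0⟩ := h
      obtain ⟨y, hy1, hy2⟩ := exists_fixed_lift' ρ Bad hunr x0
      exact ⟨y, fun x _ => by rw [hy1, hx0], fun _ => hy2⟩
    · exact ⟨0, fun x hx => absurd ⟨x, hx⟩ h, fun h' => absurd h' h⟩
  choose y hy1 hy2 using key
  exact ⟨y, fun x => hy1 _ x rfl, fun γ x => hy2 _ ⟨x, rfl⟩ γ⟩

end

end Fermat.Agent.FF.INST.Lift1
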