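/-
Programme FF (S19), chapter INST (lead): **Riemann's inequality in the form `hRR`** used by
`FF/KER/Ker0.kerEquiv`, `FF/KER/Add0`, `FF/INST/Gen0.Setting`:
for `K` algebraically closed of characteristic `0`, `IsGen K x`, `HasCanonicalDivisor`:
every divisor of degree `genus K F` has a nonzero section.
-/
import Mathlib
import Fermat.Agent.MW.ASM.Reps1

set_option autoImplicit false

namespace Fermat.Agent.FF.INST.RRInst0

open AlgebraicCurve Fermat.Agent.X0.FF Fermat.Agent.RR.LSpace

variable {K F : Type*} [Field K] [Field F] [Algebra K F] [IsAlgClosed K] [CharZero K] {x : F}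
  [HasCanonicalDivisor (K := K) (F := F)]

/-- `l(E) ≥ 1` for `deg E = g`, in the form of the hypothesis `hRR`. -/
theorem hRR_of_isGen (hx : IsGen K x) (E : Divisor K F) (hE : Divisor.degree E = genus K F) :
    ∃ f : F, f ≠ 0 ∧ ∀ P : Place K F, -(E P) ≤ P.ord f := by
  have h := Fermat.Agent.MW.ASM.Reps1.riemann_le hx E
  rw [hE] at h
  have hpos : 0 < Module.finrank K (riemannRochSpace E) := by omega
  haveI : Nontrivial (riemannRochSpace E) := Module.nontrivial_of_finrank_pos hpos
  obtain ⟨f, hf⟩ := exists_ne (0 : riemannRochSpace E)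
  have hf0 : (f : F) ≠ 0 := fun h0 => hf (Subtype.ext h0)
  exact ⟨f, hf0, (mem_L_iff hf0).mp f.2⟩

end Fermat.Agent.FF.INST.RRInst0
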