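/-
Programme FF (S19), chapter INST (lead): **abstract assembly for one admissible system**.

From: a good-reduction datum `D`, a group `Γ` ("inertia") acting semilinearly and trivially on the
residue discs, `Γ`-fixed functions whose reductions are uniformizers at all places of the reduction
off a finite set (F0's `t − c`), and the output of F5 for `Γ`-fixed systems,
to: `ApproxGen W A act (gens)` on any finite `Γ`-stable subgroup `M ⊂ Pic0`.

* `NSSystem.recentre` : change the centres and uniformizers of a non-special system inside the discs;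
* `exists_fixed_centre` : the centre of a `Γ`-fixed function whose reduction is a uniformizer is `Γ`-fixed;
* `exists_admissible` : a `Γ`-fixed non-special system of `genus L F` centres;
* `exists_setting` : a `Gen0.Setting` on `M`;
* `exists_approxGen` : the approximate Hopf generating set over `Γ`.
-/
import Mathlib
import Fermat.Agent.FF.INST.Comul0
import Fermat.Agent.FF.INST.Lift1
import Fermat.Agent.FF.INST.RRInst0
import Fermat.Agent.FF.NS.NSFinal5
import Fermat.Agent.FF.RED.RedAut7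

set_option autoImplicit false
set_option linter.unusedSectionVars false
set_option linter.style.longLine false

namespace Fermat.Agent.FF.INST.Main0

open AlgebraicCurve Fermat.Agent.X0.FF Fermat.Agent.RR.LSpace Fermat.Agent.MW.EMB.Value6
open Fermat.Agent.FF.RED.RedDatum7 Fermat.Agent.FF.RED.Disc7 Fermat.Agent.FF.KER.Ker0
open Fermat.Agent.FF.KER.KerGal0 Fermat.Agent.FF.INST.Gen0 Fermat.Agent.FF.RED.RedAut7
open Fermat.Agent.FF.BASE.ApproxGen2 Fermat.Agent.FF.NS.Link9

noncomputable section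

variable {L F k Ft : Type} [Field L] [Field F] [Algebra L F] [Field k] [Field Ft] [Algebra k Ft]
variable {D : RedDatum L F k Ft} {g : ℕ}

/-- change the centres and the uniformizers of a non-special system inside their discs. -/
def _root_.Fermat.Agent.FF.KER.Ker0.NSSystem.recentre (S : NSSystem D g) (P' : Fin g → Place L F)
    (u' : Fin g → D.G) (hP' : ∀ i, D.r (P' i) = D.r (S.P i))
    (good' : ∀ i, IsGoodUnif D (P' i) (u' i)) : NSSystem D g where
  P := P'
  u := u'
  good := good'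
  inj := by
    intro i j h
    simp only [hP'] at h
    exact S.inj h
  ns := by
    intro f hf h1 h2
    refine S.ns f hf (fun Q' hQ' => h1 Q' fun i => ?_) (fun i => ?_)
    · rw [hP' i]; exact hQ' i
    · rw [← hP' i]; exact h2 i
  Q0 := S.Q0
  hQ0 := fun i => by rw [hP' i]; exact S.hQ0 i

variable {Γ : Type} [Group Γ] (ρ : Γ →* SemilinearAut L F)

/-- the centre of a `Γ`-fixed function whose reduction is a uniformizer at `Q` is a `Γ`-fixed
place, and the function is a good uniformizer there. -/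
theorem exists_fixed_centre (triv : ∀ (γ : Γ) (P : Place L F), D.r (ρ γ • P) = D.r P)
    {Q : Place k Ft} (u : D.G) (hpf : D.PoleFree (u : F) Q) (h1 : Q.ord (D.red u) = 1)
    (hfix : ∀ γ : Γ, ρ γ • (u : F) = (u : F)) :
    ∃ P : Place L F, D.r P = Q ∧ IsGoodUnif D P u ∧ ∀ γ : Γ, ρ γ • P = P := by
  obtain ⟨P, ⟨hP, hgood⟩, -⟩ := exists_unique_isGoodUnif_of_ord_red u hpf h1
  refine ⟨P, hP, hgood, fun γ => ?_⟩
  by_contra hne
  have h0 := (hgood.2.2 (ρ γ • P) (triv γ P)).2 hne
  have h2 : (ρ γ • P).ord (ρ γ • (u : F)) = P.ord (u : F) := SemilinearAut.ord_smul (ρ γ) P _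
  rw [hfix γ, h0, hgood.1] at h2
  omega

variable [IsAlgClosed L] [CharZero L] {x : F} [HasCanonicalDivisor (K := L) (F := F)] [Infinite k]

/-- **an admissible system**: a `Γ`-fixed non-special system of `genus L F` centres. -/
theorem exists_admissible (hx : IsGen L x) (hsurj : Function.Surjective D.red) {ι : Type}
    (C : ChartCover D ι) (triv : ∀ (γ : Γ) (P : Place L F), D.r (ρ γ • P) = D.r P)
    (Bad : Finset (Place k Ft))
    (hunif : ∀ Q : Place k Ft, Q ∉ Bad → ∃ u : D.G, D.PoleFree (u : F) Q ∧ Q.ord (D.red u) = 1 ∧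
      ∀ γ : Γ, ρ γ • (u : F) = (u : F)) :
    ∃ S : NSSystem D (genus L F), ∀ γ : Γ, Fixes S (ρ γ) := by
  obtain ⟨S₁, hS₁, -⟩ := Fermat.Agent.FF.NS.NSFinal5.exists_nsSystem hx hsurj C Bad
  have key : ∀ i, ∃ (P : Place L F) (u : D.G), D.r P = D.r (S₁.P i) ∧ IsGoodUnif D P u ∧
      (∀ γ : Γ, ρ γ • P = P) ∧ ∀ γ : Γ, ρ γ • (u : F) = (u : F) := by
    intro i
    obtain ⟨u, hpf, h1, hfix⟩ := hunif _ (hS₁ i)
    obtain ⟨P, hP, hgood, hPfix⟩ := exists_fixed_centre ρ triv u hpf h1 hfix
    exact ⟨P, u, hP, hgood, hPfix, hfix⟩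
  choose P' u' hP' good' hPfix hufix using key
  exact ⟨S₁.recentre P' u' hP' good', fun γ => ⟨fun i => hPfix i γ, fun i => hufix i γ⟩⟩

variable [MulSemiringAction Γ L]

/-- **a setting** on a finite `Γ`-stable subgroup `M` of `Pic0`. -/
theorem exists_setting (hx : IsGen L x) (hsurj : Function.Surjective D.red) {ι : Type}
    (C : ChartCover D ι)
    (base : ∀ (γ : Γ) (a : L), SemilinearAut.baseAut (ρ γ) a = γ • a)
    (triv : ∀ (γ : Γ) (P : Place L F), D.r (ρ γ • P) = D.r P)
    (Bad : Finset (Place k Ft))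
    (hunif : ∀ Q : Place k Ft, Q ∉ Bad → ∃ u : D.G, D.PoleFree (u : F) Q ∧ Q.ord (D.red u) = 1 ∧
      ∀ γ : Γ, ρ γ • (u : F) = (u : F))
    (M : AddSubgroup (Pic0 L F)) (finM : Finite M) (stab : ∀ (γ : Γ), ∀ x ∈ M, ρ γ • x ∈ M) :
    ∃ (S : NSSystem D (genus L F)) (Z : Setting S Γ), Z.ρ = ρ ∧ Z.M = M := by
  obtain ⟨S, hS⟩ := exists_admissible ρ hx hsurj C triv Bad hunif
  have hunr : ∀ Q : Place k Ft, Q ∉ Bad → ∃ P : Place L F, D.r P = Q ∧ ∀ γ : Γ, ρ γ • P = P := by
    intro Q hQ
    obtain ⟨u, hpf, h1, hfix⟩ := hunif Q hQ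
    obtain ⟨P, hP, -, hPfix⟩ := exists_fixed_centre ρ triv u hpf h1 hfix
    exact ⟨P, hP, hPfix⟩
  obtain ⟨y, hy1, hy2⟩ := Fermat.Agent.FF.INST.Lift1.exists_lifts' ρ Bad hunr
  exact ⟨S, { hRR := fun E hE => Fermat.Agent.FF.INST.RRInst0.hRR_of_isGen hx E hE
              ρ := ρ
              base := base
              triv := triv
              fixes := hS
              M := M
              finM := finM
              stab := stab
              y := y
              red_y := fun x _ => hy1 x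
              fix_y := fun γ x _ => hy2 γ x }, rfl, rfl⟩

/-- **the approximate Hopf generating set over `Γ`** on a finite `Γ`-stable subgroup `M ⊂ Pic0`. -/
theorem exists_approxGen (hx : IsGen L x) (hsurj : Function.Surjective D.red) {ι : Type}
    (C : ChartCover D ι)
    (base : ∀ (γ : Γ) (a : L), SemilinearAut.baseAut (ρ γ) a = γ • a)
    (triv : ∀ (γ : Γ) (P : Place L F), D.r (ρ γ • P) = D.r P)
    (Bad : Finset (Place k Ft))
    (hunif : ∀ Q : Place k Ft, Q ∉ Bad → ∃ u : D.G, D.PoleFree (u : F) Q ∧ Q.ord (D.red u) = 1 ∧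
      ∀ γ : Γ, ρ γ • (u : F) = (u : F))
    (M : AddSubgroup (Pic0 L F)) (finM : Finite M) (stab : ∀ (γ : Γ), ∀ x ∈ M, ρ γ • x ∈ M)
    {W : Type} [CommRing W] [Algebra W L]
    (hWA : ∀ w : W, algebraMap W L w ∈ D.A)
    (hWfix : ∀ a : D.A, (∀ γ : Γ, γ • (a : L) = (a : L)) → ∃ w : W, algebraMap W L w = (a : L))
    (hFG : ∀ S : NSSystem D (genus L F), (∀ γ : Γ, Fixes S (ρ γ)) → Comul0.FGOut S W) :
    ∃ S0 : Set (M → L), ApproxGen W D.A.toSubring
      (fun (γ : Γ) (m : M) => (⟨ρ γ • (m : Pic0 L F), stab γ m.1 m.2⟩ : M)) S0 := by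
  obtain ⟨S, Z, hZρ, hZM⟩ := exists_setting ρ hx hsurj C base triv Bad hunif M finM stab
  subst hZρ
  subst hZM
  exact ⟨Z.gens, Comul0.approxGen Z hWA hWfix (hFG S Z.fixes)⟩

end

end Fermat.Agent.FF.INST.Main0
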