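/-
Programme FF (S19), chapter INST (lead): **conjugate systems** (transport of structure by a
semilinear automorphism `α : RedAut D` of the good-reduction datum, e.g. a Frobenius lift in `D_v`).

* `mapDomain_r_smul`, `redPic_smul_redAut` : `redPic (α.g • x) = α.gt • redPic x`;
* `NSSystem.conj α S` : the conjugate non-special system (`α.g • P i`, `α • u i`, `α.gt • Q0`);
* `conj_pt`, `conj_exists_act`, `conj_Ediv`, `conj_D0`, `conj_kap` :
  `α.g • S.kap T = (S.conj α).kap T'` when `T' i = baseAut α.g (T i)`.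
-/
import Mathlib
import Fermat.Agent.FF.INST.Gen0
import Fermat.Agent.FF.RED.RedAut7

set_option autoImplicit false
set_option linter.unusedSectionVars false
set_option linter.style.longLine false

namespace Fermat.Agent.FF.INST.Conj0

open AlgebraicCurve Fermat.Agent.X0.FF Fermat.Agent.RR.LSpace Fermat.Agent.MW.EMB.Value6
open Fermat.Agent.FF.RED.RedDatum7 Fermat.Agent.FF.RED.Disc7 Fermat.Agent.FF.KER.Ker0
open Fermat.Agent.FF.KER.KerGal0 Fermat.Agent.FF.INST.Gen0 Fermat.Agent.FF.RED.RedAut7

noncomputable section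

variable {L F : Type} {k Ft : Type*} [Field L] [Field F] [Algebra L F] [Field k] [Field Ft]
  [Algebra k Ft]
variable {D : RedDatum L F k Ft} {g : ℕ}

/-! ### reduction commutes with `α` -/

theorem mapDomain_r_smul (α : RedAut D) (E : Divisor L F) :
    Finsupp.mapDomain D.r (α.g • E) = α.gt • Finsupp.mapDomain D.r E := by
  rw [SemilinearAut.divisor_smul_def, SemilinearAut.divisor_smul_def, ← Finsupp.mapDomain_comp,
    ← Finsupp.mapDomain_comp]
  congr 1
  funext P
  exact α.r_map P

theorem redPic_smul_redAut (α : RedAut D) (x : Pic0 L F) :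
    redPic D (α.g • x) = α.gt • redPic D x := by
  obtain ⟨E, rfl⟩ := Pic0.mk_surjective x
  rw [SemilinearAut.pic0_smul_mk, redPic_mk, redPic_mk, SemilinearAut.pic0_smul_mk]
  congr 1
  apply Subtype.ext
  rw [coe_redDegZero, SemilinearAut.coe_degZeroSMulHom, SemilinearAut.coe_degZeroSMulHom,
    coe_redDegZero]
  exact mapDomain_r_smul α _

/-! ### the conjugate non-special system -/

/-- the conjugate of a non-special system by `α`. -/
def _root_.Fermat.Agent.FF.KER.Ker0.NSSystem.conj (S : NSSystem D g) (α : RedAut D) :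
    NSSystem D g where
  P i := α.g • S.P i
  u i := α.smulG (S.u i)
  good i := α.isGoodUnif_smul (S.good i)
  inj := by
    intro i j h
    simp only [α.r_map] at h
    exact S.inj (MulAction.injective α.gt h)
  ns := by
    intro f hf h1 h2
    have hf' : α.gt⁻¹ • f ≠ 0 := by
      intro h0
      exact hf ((smul_eq_zero_iff_eq _).mp h0)
    have hord : ∀ Q' : Place k Ft, Q'.ord (α.gt⁻¹ • f) = (α.gt • Q').ord f := by
      intro Q'
      have := SemilinearAut.ord_smul α.gt Q' (α.gt⁻¹ • f)
      rw [smul_inv_smul] at this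
      exact this.symm
    obtain ⟨c, hc⟩ := S.ns (α.gt⁻¹ • f) hf'
      (fun Q' hQ' => by
        rw [hord]
        refine h1 _ fun i => ?_
        rw [α.r_map]
        intro h
        exact hQ' i (MulAction.injective α.gt h))
      (fun i => by
        rw [hord, ← α.r_map]
        exact h2 i)
    refine ⟨SemilinearAut.baseAut α.gt c, ?_⟩
    rw [← SemilinearAut.smul_algebraMap, ← hc, smul_inv_smul]
  Q0 := α.gt • S.Q0
  hQ0 := by
    intro i
    rw [α.r_map]
    intro h
    exact S.hQ0 i (MulAction.injective α.gt h)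

variable (S : NSSystem D g) (α : RedAut D)

@[simp] theorem conj_P (i : Fin g) : (S.conj α).P i = α.g • S.P i := rfl

@[simp] theorem conj_u (i : Fin g) : (S.conj α).u i = α.smulG (S.u i) := rfl

theorem conj_Q (i : Fin g) : (S.conj α).Q i = α.gt • S.Q i := α.r_map _

theorem r_smul_of_mem_disc (i : Fin g) {P' : Place L F} (hP' : D.r P' = S.Q i) :
    D.r (α.g • P') = (S.conj α).Q i := by
  rw [α.r_map, hP', conj_Q]

theorem valF_smul_conj_u (i : Fin g) (P' : Place L F) :
    valF D.HL (α.g • P') (((S.conj α).u i : D.G) : F)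
      = SemilinearAut.baseAut α.g (valF D.HL P' (S.u i : F)) :=
  Fermat.Agent.MW.EMB.GalVal1.valF_smul D.HL α.g P' (S.u i : F)

/-- `α` moves the point of coordinate `c` of `S` to the point of coordinate `α c` of `S.conj α`. -/
theorem conj_pt (i : Fin g) {c c' : mA D}
    (hc : ((c' : D.A) : L) = SemilinearAut.baseAut α.g ((c : D.A) : L)) :
    α.g • S.pt i c = (S.conj α).pt i c' := by
  refine ((S.conj α).good i).eq_of_valF_eq (r_smul_of_mem_disc S α i (S.r_pt i c))
    ((S.conj α).r_pt i c') ?_
  rw [valF_smul_conj_u, S.valF_pt, (S.conj α).valF_pt, hc]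

theorem conj_exists_act (S : NSSystem D g) (α : RedAut D) (i : Fin g) (c : mA D) :
    ∃ c' : mA D, ((c' : D.A) : L) = SemilinearAut.baseAut α.g ((c : D.A) : L) := by
  refine ⟨(S.conj α).coord i (r_smul_of_mem_disc S α i (S.r_pt i c)), ?_⟩
  show valF D.HL (α.g • S.pt i c) (((S.conj α).u i : D.G) : F) = _
  rw [valF_smul_conj_u, S.valF_pt]

theorem conj_Ediv {T T' : Fin g → mA D}
    (hT : ∀ i, ((T' i : D.A) : L) = SemilinearAut.baseAut α.g ((T i : D.A) : L)) :
    α.g • S.Ediv T = (S.conj α).Ediv T' := by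
  rw [NSSystem.Ediv, NSSystem.Ediv, Finset.smul_sum]
  refine Finset.sum_congr rfl fun i _ => ?_
  rw [SemilinearAut.smul_single, conj_pt S α i (hT i)]

theorem conj_D0 : α.g • S.D0 = (S.conj α).D0 := by
  rw [NSSystem.D0, NSSystem.D0, Finset.smul_sum]
  refine Finset.sum_congr rfl fun i _ => ?_
  rw [SemilinearAut.smul_single, conj_P]

/-- the coordinates of `α • x` in the conjugate system are the conjugates of the coordinates of
`x`. -/
theorem conj_kap {T T' : Fin g → mA D}
    (hT : ∀ i, ((T' i : D.A) : L) = SemilinearAut.baseAut α.g ((T i : D.A) : L)) :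
    α.g • S.kap T = (S.conj α).kap T' := by
  rw [NSSystem.kap, NSSystem.kap, SemilinearAut.pic0_smul_mk]
  congr 1
  apply Subtype.ext
  rw [SemilinearAut.coe_degZeroSMulHom]
  show α.g • (S.Ediv T - S.D0) = (S.conj α).Ediv T' - (S.conj α).D0
  rw [smul_sub, conj_Ediv S α hT, conj_D0]

end

end Fermat.Agent.FF.INST.Conj0
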