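/-
Programme FF (S19), chapter INST (lead): **(L) unramified lifts**.  If every residue disc contains a
`Γ`-fixed place (the centre of a `Γ`-fixed good uniformizer), then every class `x ∈ Pic0 (F / L)` has
a `Γ`-fixed lift `y` of its reduction: `redPic y = redPic x`, `γ • y = y`.  (Write `x = [E − D0]` with
`E ≥ 0` by Riemann's inequality and move every point of `E` to the centre of its disc.)

* `exists_fixed_lift`; `exists_lifts` : a function `y : Pic0 (Ft / k) → Pic0 (F / L)` as required by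
  `Gen0.Setting` (`red_y`, `fix_y` hold for ALL `x`).
-/
import Mathlib
import Fermat.Agent.FF.INST.Gen0

set_option autoImplicit false
set_option linter.unusedSectionVars false
set_option linter.style.longLine false

namespace Fermat.Agent.FF.INST.Lift0

open AlgebraicCurve Fermat.Agent.X0.FF Fermat.Agent.RR.LSpace Fermat.Agent.MW.EMB.Value6
open Fermat.Agent.FF.RED.RedDatum7 Fermat.Agent.FF.RED.Disc7 Fermat.Agent.FF.KER.Ker0
open Fermat.Agent.FF.KER.KerGal0 Fermat.Agent.FF.INST.Gen0

noncomputable section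

variable {L F : Type} {k Ft : Type*} [Field L] [Field F] [Algebra L F] [Field k] [Field Ft]
  [Algebra k Ft]
variable {D : RedDatum L F k Ft} {g : ℕ}

/-- moving the points of a divisor does not change the degree (all places have degree one). -/
theorem degree_mapDomain_self (H : LHyp L F) (φ : Place L F → Place L F) (E : Divisor L F) :
    Divisor.degree (Finsupp.mapDomain φ E) = Divisor.degree E := by
  have h : (Divisor.degree (K := L) (F := F)).comp (Finsupp.mapDomain.addMonoidHom φ)
      = Divisor.degree (K := L) (F := F) := by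
    apply Finsupp.addHom_ext
    intro P n
    rw [AddMonoidHom.comp_apply, Finsupp.mapDomain.addMonoidHom_apply, Finsupp.mapDomain_single,
      degree_single H, degree_single H]
  exact DFunLike.congr_fun h E

variable (S : NSSystem D g) {Γ : Type} [Group Γ] (ρ : Γ →* SemilinearAut L F)

/-- **(L)**: a `Γ`-fixed lift of the reduction of a class. -/
theorem exists_fixed_lift
    (hRR : ∀ E : Divisor L F, Divisor.degree E = g → ∃ f : F, f ≠ 0 ∧ ∀ P, -(E P) ≤ P.ord f)
    (hfix : ∀ γ : Γ, Fixes S (ρ γ))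
    (hunr : ∀ Q : Place k Ft, ∃ P : Place L F, D.r P = Q ∧ ∀ γ : Γ, ρ γ • P = P)
    (x : Pic0 L F) : ∃ y : Pic0 L F, redPic D y = redPic D x ∧ ∀ γ : Γ, ρ γ • y = y := by
  obtain ⟨D', rfl⟩ := Pic0.mk_surjective x
  obtain ⟨f, hf, hfE⟩ := hRR ((D' : Divisor L F) + S.D0) (by
    rw [map_add, S.degree_D0, (Divisor.mem_degZero.mp D'.2), zero_add])
  set E : Divisor L F := divOf D.HL hf + ((D' : Divisor L F) + S.D0) with hEdef
  have hEdeg : Divisor.degree E = g := by
    rw [hEdef, map_add, map_add, degree_divOf, S.degree_D0, (Divisor.mem_degZero.mp D'.2)]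
    ring
  choose centre hcr hcfix using hunr
  set Ec : Divisor L F := Finsupp.mapDomain (fun P => centre (D.r P)) E with hEcdef
  have hEcr : Finsupp.mapDomain D.r Ec = Finsupp.mapDomain D.r E := by
    rw [hEcdef, ← Finsupp.mapDomain_comp]
    congr 1
    funext P
    exact hcr (D.r P)
  have hEcdeg : Divisor.degree Ec = g := by
    rw [hEcdef, degree_mapDomain_self D.HL, hEdeg]
  have hEcfix : ∀ γ : Γ, ρ γ • Ec = Ec := by
    intro γ
    rw [SemilinearAut.divisor_smul_def, hEcdef, ← Finsupp.mapDomain_comp]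
    congr 1
    funext P
    exact hcfix (D.r P) γ
  let yd : Divisor.degZero (K := L) (F := F) := ⟨Ec - S.D0, by
    rw [Divisor.mem_degZero, map_sub, hEcdeg, S.degree_D0, sub_self]⟩
  refine ⟨Pic0.mk yd, ?_, fun γ => ?_⟩
  · -- same reduction
    rw [← sub_eq_zero, ← map_sub]
    have : Pic0.mk yd - Pic0.mk D' = Pic0.mk (yd - D') := rfl
    rw [this, redPic_mk_eq_zero_iff]
    have hcoe : ((yd - D' : Divisor.degZero (K := L) (F := F)) : Divisor L F)
        = Ec - S.D0 - (D' : Divisor L F) := rfl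
    rw [hcoe, mapDomain_sub', mapDomain_sub', hEcr]
    have h2 : Finsupp.mapDomain D.r E - Finsupp.mapDomain D.r S.D0
        - Finsupp.mapDomain D.r (D' : Divisor L F) = Finsupp.mapDomain D.r (divOf D.HL hf) := by
      rw [hEdef, Finsupp.mapDomain_add, Finsupp.mapDomain_add]
      abel
    rw [h2]
    exact isPrincipal_mapDomain D ⟨f, hf, fun P => divOf_apply D.HL hf P⟩
  · rw [SemilinearAut.pic0_smul_mk]
    congr 1
    apply Subtype.ext
    rw [SemilinearAut.coe_degZeroSMulHom]
    show ρ γ • (Ec - S.D0) = Ec - S.D0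
    rw [smul_sub, hEcfix γ, smul_D0 (hfix γ)]

/-- the lifts, as a function of the reduction class. -/
theorem exists_lifts
    (hRR : ∀ E : Divisor L F, Divisor.degree E = g → ∃ f : F, f ≠ 0 ∧ ∀ P, -(E P) ≤ P.ord f)
    (hfix : ∀ γ : Γ, Fixes S (ρ γ))
    (hunr : ∀ Q : Place k Ft, ∃ P : Place L F, D.r P = Q ∧ ∀ γ : Γ, ρ γ • P = P) :
    ∃ y : Pic0 k Ft → Pic0 L F, (∀ x : Pic0 L F, redPic D (y (redPic D x)) = redPic D x) ∧
      ∀ (γ : Γ) (x : Pic0 L F), ρ γ • y (redPic D x) = y (redPic D x) := by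
  classical
  have key : ∀ c : Pic0 k Ft, ∃ y : Pic0 L F, (∀ x : Pic0 L F, redPic D x = c → redPic D y = c) ∧
      ((∃ x : Pic0 L F, redPic D x = c) → ∀ γ : Γ, ρ γ • y = y) := by
    intro c
    by_cases h : ∃ x : Pic0 L F, redPic D x = c
    · obtain ⟨x0, hx0⟩ := h
      obtain ⟨y, hy1, hy2⟩ := exists_fixed_lift S ρ hRR hfix hunr x0
      exact ⟨y, fun x _ => by rw [hy1, hx0], fun _ => hy2⟩
    · exact ⟨0, fun x hx => absurd ⟨x, hx⟩ h, fun h' => absurd h' h⟩
  choose y hy1 hy2 using key
  exact ⟨y, fun x => hy1 _ x rfl, fun γ x => hy2 _ ⟨x, rfl⟩ γ⟩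

end

end Fermat.Agent.FF.INST.Lift0
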