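/-
Programme FF (S19), chapter INST (lead): **closing theorem of F5 and the full abstract plug**.

* `psOut_of_nsSystem` : `Rational7.PSOut S` for EVERY non-special system of `genus L F` centres
  (two auxiliary systems off the discs of `S` by `NSFinal5.exists_nsSystem`, polar chain data by
  `ChainExists4.exists_chainData` with Riemann's inequality `Reps1.riemann_le`, then
  `Out3.psOut_of_law`);
* `exists_approxGen_main` : `Main0.exists_setting` + `Rational7.fgOut_of_psOut` + `Comul0.approxGen`.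
-/
import Mathlib
import Fermat.Agent.FF.INST.Main0
import Fermat.Agent.FF.FAM.ChainExists4
import Fermat.Agent.FF.FAM.Out3
import Fermat.Agent.FF.GLUE.Rational7

set_option autoImplicit false
set_option linter.unusedSectionVars false
set_option linter.style.longLine false

namespace Fermat.Agent.FF.INST.Main1

open AlgebraicCurve Fermat.Agent.X0.FF Fermat.Agent.RR.LSpace Fermat.Agent.MW.EMB.Value6
open Fermat.Agent.FF.RED.RedDatum7 Fermat.Agent.FF.RED.Disc7 Fermat.Agent.FF.KER.Ker0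
open Fermat.Agent.FF.KER.KerGal0 Fermat.Agent.FF.INST.Gen0 Fermat.Agent.FF.RED.RedAut7
open Fermat.Agent.FF.BASE.ApproxGen2 Fermat.Agent.FF.NS.Link9 Fermat.Agent.FF.GLUE.Rational7
open Fermat.Agent.FF.FAM.Chain8

noncomputable section

variable {L F k Ft : Type} [Field L] [Field F] [Algebra L F] [Field k] [Field Ft] [Algebra k Ft]
variable {D : RedDatum L F k Ft}
variable [IsAlgClosed L] [CharZero L] {x : F} [HasCanonicalDivisor (K := L) (F := F)] [Infinite k]

/-- **F5, closing theorem**: the power-series output for every non-special system of `genus L F`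
centres. -/
theorem psOut_of_nsSystem (hx : IsGen L x) (hsurj : Function.Surjective D.red) {ι : Type}
    (C : ChartCover D ι)
    (hrank : ∀ w : D.A, w ≠ 0 → ∀ c : D.A, ¬ IsUnit c → ∃ n : ℕ, c ^ n ∈ Ideal.span {w})
    (S : NSSystem D (genus L F)) : PSOut S := by
  classical
  obtain ⟨S0', h0', -⟩ := Fermat.Agent.FF.NS.NSFinal5.exists_nsSystem hx hsurj C
    (Finset.univ.image fun i => D.r (S.P i))
  obtain ⟨S1, h1, -⟩ := Fermat.Agent.FF.NS.NSFinal5.exists_nsSystem hx hsurj C
    ((Finset.univ.image fun i => D.r (S.P i)) ∪ Finset.univ.image fun i => D.r (S0'.P i))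
  have d00' : ∀ i j, D.r (S.P i) ≠ D.r (S0'.P j) := fun i j h =>
    h0' j (h ▸ Finset.mem_image_of_mem _ (Finset.mem_univ i))
  have d01 : ∀ i j, D.r (S.P i) ≠ D.r (S1.P j) := fun i j h =>
    h1 j (Finset.mem_union_left _ (h ▸ Finset.mem_image_of_mem _ (Finset.mem_univ i)))
  have d0'1 : ∀ i j, D.r (S0'.P i) ≠ D.r (S1.P j) := fun i j h =>
    h1 j (Finset.mem_union_right _ (h ▸ Finset.mem_image_of_mem _ (Finset.mem_univ i)))
  obtain ⟨K, hK0, -, -, hKP⟩ := Fermat.Agent.FF.FAM.ChainExists4.exists_chainData S S0' S1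
    d01 d0'1 d00' (fun E => Fermat.Agent.MW.ASM.Reps1.riemann_le hx E)
  have := Fermat.Agent.FF.FAM.Out3.psOut_of_law K hKP hrank
  rwa [hK0] at this

variable {Γ : Type} [Group Γ] (ρ : Γ →* SemilinearAut L F) [MulSemiringAction Γ L]

/-- **the approximate Hopf generating set over `Γ`** on a finite `Γ`-stable subgroup `M ⊂ Pic0`:
all inputs of F5/F3'/GLUE discharged. -/
theorem exists_approxGen_main (hx : IsGen L x) (hsurj : Function.Surjective D.red) {ι : Type}
    (C : ChartCover D ι)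
    (base : ∀ (γ : Γ) (a : L), SemilinearAut.baseAut (ρ γ) a = γ • a)
    (triv : ∀ (γ : Γ) (P : Place L F), D.r (ρ γ • P) = D.r P)
    (Bad : Finset (Place k Ft))
    (hunif : ∀ Q : Place k Ft, Q ∉ Bad → ∃ u : D.G, D.PoleFree (u : F) Q ∧ Q.ord (D.red u) = 1 ∧
      ∀ γ : Γ, ρ γ • (u : F) = (u : F))
    (M : AddSubgroup (Pic0 L F)) (finM : Finite M) (stab : ∀ (γ : Γ), ∀ x ∈ M, ρ γ • x ∈ M)
    [Infinite D.A] {W : Type} [CommRing W] [Algebra W L]
    (hΓA : ∀ (γ : Γ) (a : L), a ∈ D.A → γ • a ∈ D.A)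
    (hsmall : Fermat.Agent.FF.GLUE.UniqSeries7.Small (IsLocalRing.maximalIdeal D.A))
    (hrank : ∀ w : D.A, w ≠ 0 → ∀ c : D.A, ¬ IsUnit c → ∃ n : ℕ, c ^ n ∈ Ideal.span {w})
    (hWA : ∀ w : W, algebraMap W L w ∈ D.A) (hWinj : Function.Injective (algebraMap W L))
    (hWfix : ∀ a : D.A, (∀ γ : Γ, γ • (a : L) = (a : L)) → ∃ w : W, algebraMap W L w = (a : L)) :
    ∃ S0 : Set (M → L), ApproxGen W D.A.toSubring
      (fun (γ : Γ) (m : M) => (⟨ρ γ • (m : Pic0 L F), stab γ m.1 m.2⟩ : M)) S0 := by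
  obtain ⟨S, Z, hZρ, hZM⟩ := Main0.exists_setting ρ hx hsurj C base triv Bad hunif M finM stab
  subst hZρ
  subst hZM
  have hPS : PSOut S := psOut_of_nsSystem hx hsurj C hrank S
  exact ⟨Z.gens, Comul0.approxGen Z hWA hWfix
    (fgOut_of_psOut Z hΓA hsmall hrank hWA hWinj hWfix hPS)⟩

end

end Fermat.Agent.FF.INST.Main1
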